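import Fermat.Agent.S34.V2.Gauss
import Fermat.Agent.S34.V2.QF
import Fermat.Agent.S28.Series

set_option autoImplicit false
set_option linter.unusedSectionVars false

/-!
# S36/V3 : a Gauss valuation ring of `K'((Q))` for an arbitrary local domain `R'` (e.g. a valuation ring of `ℚ̄`)
(task V3-GaussLoc)

`R'` a local domain with fraction field `K'` (NOT nec. discrete).  `gaussLoc R' K'` is ANY valuation subring of `K'((Q))` dominating
`R'((Q))` localised at the prime `{all coefficients in 𝔪}`.  It is used for the expansion at the middle cusp, with `R' = A ⊂ K' = ℚ̄`.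

## Sketches
* `exists_gaussLoc`: copy of the proof of `S18.V.exists_gaussO` (file `S18/V/Gauss.lean`) with `f := cR R' K'` instead of `(inc K).comp (cR R K)`:
  that proof only uses `IsLocalRing` (`Gauss.redR`, `Gauss.redR_surjective`, `Gauss.redR_eq_zero_iff` are already stated for local rings), injectivity of
  `algebraMap R' K'` and `Ideal.image_subset_nonunits_valuationSubring`.
* `fracLoc_mem`, `fracLoc_mem_nonunits_iff`: as `S34.V2.frac_mem`, `frac_mem_nonunits_iff`.
* base change: `f ∈ gaussL R K`, `InQF R f` ⇒ `f * cR β = cR α`, `β` primitive (`InQF.exists_frac`); apply `coeffMap ρ`: `coeffMap ρ (cR R K α) = cR R' K' (coeffMap ρR α)`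
  (`coeffMap_coeffMap`, `coeffMap_congr`); ring homs preserve units, `hloc` preserves nonunits.  Converse: if `f ∉ gaussL` then `f⁻¹ ∈ 𝔪` (valuation ring; `InQF.inv` in `QF.lean`),
  so `coeffMap ρ f⁻¹ ∈ 𝔪`, so `coeffMap ρ f ∉ gaussLoc`.
* twist: `S28.twist (Units.map _ ζ) (cR α) = cR (S28.twist ζ α)` (`S28.twist_coeff`), `twist` preserves units/nonunits of coefficients.
-/

noncomputable section

namespace Fermat.Agent.S36.V3

open ModularCurve Fermat.Agent.S18 Fermat.Agent.S18.V Fermat.Agent.S34.V2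

section Loc

variable (R' K' : Type) [CommRing R'] [IsDomain R'] [IsLocalRing R'] [Field K'] [Algebra R' K']
  [IsFractionRing R' K']

theorem GaussLoc.cR_inj : Function.Injective (cR R' K') := by
  intro y z h
  ext n
  have := congrArg (fun s => s.coeff n) h
  simp only [coeffMap_coeff] at this
  exact IsFractionRing.injective R' K' this

open Gauss in
theorem exists_gaussLoc :
    ∃ O : ValuationSubring (LaurentSeries K'),
      (∀ y : LaurentSeries R', cR R' K' y ∈ O) ∧
      (∀ y : LaurentSeries R', cR R' K' y ∈ O.nonunits ↔ ∀ n, ¬ IsUnit (y.coeff n)) := by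
  simp only [← redR_eq_zero_iff]
  set f : LaurentSeries R' →+* LaurentSeries K' := cR R' K' with hf
  have hfinj : Function.Injective f := GaussLoc.cR_inj R' K'
  set I : Ideal f.range := (RingHom.ker (redR R')).map f.rangeRestrict with hI
  have hI1 : I ≠ ⊤ := by
    intro h
    have h1 : (1 : f.range) ∈ I := by rw [h]; trivial
    rw [hI, Ideal.mem_map_iff_of_surjective _ f.rangeRestrict_surjective] at h1
    obtain ⟨y, hy, hy1⟩ := h1
    have h2 : f y = f 1 := by
      rw [map_one]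
      exact congrArg Subtype.val hy1
    rw [hfinj h2, RingHom.mem_ker, map_one] at hy
    exact one_ne_zero hy
  obtain ⟨O, hO1, hO2⟩ := Ideal.image_subset_nonunits_valuationSubring I hI1
  have hmem : ∀ y : LaurentSeries R', f y ∈ O := fun y => hO1 ⟨y, rfl⟩
  have hsmall : ∀ y : LaurentSeries R', redR R' y = 0 → f y ∈ O.nonunits := by
    intro y hy
    apply hO2
    exact ⟨f.rangeRestrict y, Ideal.mem_map_of_mem _ (RingHom.mem_ker.2 hy), rfl⟩
  refine ⟨O, hmem, fun y => ⟨fun h => ?_, hsmall y⟩⟩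
  by_contra hy
  obtain ⟨z, hz⟩ := redR_surjective R' (redR R' y)⁻¹
  have h1 : redR R' (y * z - 1) = 0 := by
    rw [map_sub, map_mul, hz, mul_inv_cancel₀ hy, map_one, sub_self]
  have h2 := hsmall _ h1
  rw [map_sub, map_mul, map_one] at h2
  rw [ValuationSubring.mem_nonunits_iff] at h h2
  have h3 : O.valuation (f y * f z) < 1 := by
    rw [map_mul]
    calc O.valuation (f y) * O.valuation (f z)
        ≤ O.valuation (f y) * 1 := by
          gcongr
          exact (O.valuation_le_one_iff _).2 (hmem z)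
      _ < 1 := by rw [mul_one]; exact h
  have h4 : O.valuation (1 : LaurentSeries K') < 1 := by
    have : (1 : LaurentSeries K') = f y * f z - (f y * f z - 1) := by ring
    rw [this]
    exact lt_of_le_of_lt (O.valuation.map_sub _ _) (max_lt h3 h2)
  rw [map_one] at h4
  exact lt_irrefl _ h4

/-- a Gauss valuation ring of `K'((Q))`. -/
def gaussLoc : ValuationSubring (LaurentSeries K') := (exists_gaussLoc R' K').choose

variable {R' K'}

theorem cR_mem_gaussLoc (y : LaurentSeries R') : cR R' K' y ∈ gaussLoc R' K' :=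
  (exists_gaussLoc R' K').choose_spec.1 y

theorem cR_mem_nonunits_gaussLoc_iff (y : LaurentSeries R') :
    cR R' K' y ∈ (gaussLoc R' K').nonunits ↔ ∀ n, ¬ IsUnit (y.coeff n) :=
  (exists_gaussLoc R' K').choose_spec.2 y

theorem GaussLoc.val_eq_one {β : LaurentSeries R'} (hβ : ∃ n, IsUnit (β.coeff n)) :
    (gaussLoc R' K').valuation (cR R' K' β) = 1 := by
  refine le_antisymm ((ValuationSubring.valuation_le_one_iff _ _).2 (cR_mem_gaussLoc β)) ?_
  by_contra h
  have h1 : cR R' K' β ∈ (gaussLoc R' K').nonunits :=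
    (ValuationSubring.mem_nonunits_iff _).2 (not_le.1 h)
  obtain ⟨n, hn⟩ := hβ
  exact (cR_mem_nonunits_gaussLoc_iff β).1 h1 n hn

theorem GaussLoc.val_frac {f : LaurentSeries K'} {α β : LaurentSeries R'}
    (hβ : ∃ n, IsUnit (β.coeff n)) (h : f * cR R' K' β = cR R' K' α) :
    (gaussLoc R' K').valuation f = (gaussLoc R' K').valuation (cR R' K' α) := by
  rw [← h, map_mul, GaussLoc.val_eq_one hβ, mul_one]

theorem fracLoc_mem {f : LaurentSeries K'} {α β : LaurentSeries R'} (hβ : ∃ n, IsUnit (β.coeff n))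
    (h : f * cR R' K' β = cR R' K' α) : f ∈ gaussLoc R' K' := by
  rw [← ValuationSubring.valuation_le_one_iff, GaussLoc.val_frac hβ h,
    ValuationSubring.valuation_le_one_iff]
  exact cR_mem_gaussLoc α

theorem fracLoc_mem_nonunits_iff {f : LaurentSeries K'} {α β : LaurentSeries R'}
    (hβ : ∃ n, IsUnit (β.coeff n)) (h : f * cR R' K' β = cR R' K' α) :
    f ∈ (gaussLoc R' K').nonunits ↔ ∀ n, ¬ IsUnit (α.coeff n) := by
  rw [← cR_mem_nonunits_gaussLoc_iff (K' := K'), ValuationSubring.mem_nonunits_iff,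
    ValuationSubring.mem_nonunits_iff, GaussLoc.val_frac hβ h]

end Loc

section Gen

variable {R K : Type} [CommRing R] [IsDomain R] [IsDiscreteValuationRing R] [Field K]
  [Algebra R K] [IsFractionRing R K]
  {R' K' : Type} [CommRing R'] [IsDomain R'] [IsLocalRing R'] [Field K'] [Algebra R' K']
  [IsFractionRing R' K'] (Φ : LaurentSeries K →+* LaurentSeries K')
  (φ : LaurentSeries R → LaurentSeries R')
  (hΦ : ∀ α, Φ (cR R K α) = cR R' K' (φ α))
  (h1 : ∀ β : LaurentSeries R, (∃ n, IsUnit (β.coeff n)) → ∃ n, IsUnit ((φ β).coeff n))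
  (h2 : ∀ α : LaurentSeries R, (∀ n, ¬ IsUnit (α.coeff n)) → ∀ n, ¬ IsUnit ((φ α).coeff n))

include hΦ h1

theorem GaussLoc.gen_mem {f : LaurentSeries K} (hf : InQF R f) (h : f ∈ gaussL R K) :
    Φ f ∈ gaussLoc R' K' := by
  obtain ⟨α, β, hβ, e⟩ := hf.exists_frac h
  refine fracLoc_mem (h1 β hβ) (α := φ α) ?_
  rw [← hΦ, ← hΦ, ← map_mul, e]

include h2

theorem GaussLoc.gen_mem_nonunits {f : LaurentSeries K} (hf : InQF R f)
    (h : f ∈ (gaussL R K).nonunits) : Φ f ∈ (gaussLoc R' K').nonunits := by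
  have hm : f ∈ gaussL R K := by
    rw [ValuationSubring.mem_nonunits_iff] at h
    exact (ValuationSubring.valuation_le_one_iff _ _).1 h.le
  obtain ⟨α, β, hβ, e⟩ := hf.exists_frac hm
  have e' : Φ f * cR R' K' (φ β) = cR R' K' (φ α) := by
    rw [← hΦ, ← hΦ, ← map_mul, e]
  rw [fracLoc_mem_nonunits_iff (h1 β hβ) e']
  exact h2 α ((frac_mem_nonunits_iff hβ e).1 h)

theorem GaussLoc.gen_mem_iff {f : LaurentSeries K} (hf : InQF R f) :
    Φ f ∈ gaussLoc R' K' ↔ f ∈ gaussL R K := by
  refine ⟨fun h => ?_, GaussLoc.gen_mem Φ φ hΦ h1 hf⟩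
  by_contra hn
  have h3 : f⁻¹ ∈ (gaussL R K).nonunits := by
    rw [ValuationSubring.inv_mem_nonunits_iff]
    exact Or.inr hn
  have h4 := GaussLoc.gen_mem_nonunits Φ φ hΦ h1 h2 hf.inv h3
  rw [map_inv₀, ValuationSubring.inv_mem_nonunits_iff] at h4
  rcases h4 with h4 | h4
  · rw [map_eq_zero] at h4
    exact hn (h4 ▸ (gaussL R K).zero_mem)
  · exact h4 h

theorem GaussLoc.gen_mem_nonunits_iff {f : LaurentSeries K} (hf : InQF R f) :
    Φ f ∈ (gaussLoc R' K').nonunits ↔ f ∈ (gaussL R K).nonunits := by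
  refine ⟨fun h => ?_, GaussLoc.gen_mem_nonunits Φ φ hΦ h1 h2 hf⟩
  rw [ValuationSubring.mem_nonunits_iff_or] at h ⊢
  rcases h with h | h
  · rw [map_eq_zero] at h
    exact Or.inl h
  · right
    intro h3
    apply h
    rw [← map_inv₀]
    exact GaussLoc.gen_mem Φ φ hΦ h1 hf.inv h3

end Gen

section BC

variable {R K : Type} [CommRing R] [IsDomain R] [IsDiscreteValuationRing R] [Field K]
  [Algebra R K] [IsFractionRing R K]
  {R' K' : Type} [CommRing R'] [IsDomain R'] [IsLocalRing R'] [Field K'] [Algebra R' K']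
  [IsFractionRing R' K'] (ρ : K →+* K') (ρR : R →+* R')
  (hρ : ∀ r, ρ (algebraMap R K r) = algebraMap R' K' (ρR r))
  (hloc : ∀ r, ¬ IsUnit r → ¬ IsUnit (ρR r))

include hρ

theorem coeffMap_cR_bc (α : LaurentSeries R) :
    coeffMap ρ (cR R K α) = cR R' K' (coeffMap ρR α) := by
  ext n
  simp only [coeffMap_coeff, hρ]

include hloc

/-- the Gauss valuation of `(R', K')` restricts to the Gauss valuation of `(R, K)`. -/
theorem bc_mem_iff {f : LaurentSeries K} (hf : InQF R f) :
    coeffMap ρ f ∈ gaussLoc R' K' ↔ f ∈ gaussL R K :=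
  GaussLoc.gen_mem_iff (coeffMap ρ) (coeffMap ρR) (coeffMap_cR_bc ρ ρR hρ)
    (fun β ⟨n, hn⟩ => ⟨n, by rw [coeffMap_coeff]; exact hn.map ρR⟩)
    (fun α h n => by rw [coeffMap_coeff]; exact hloc _ (h n)) hf

theorem bc_mem_nonunits_iff {f : LaurentSeries K} (hf : InQF R f) :
    coeffMap ρ f ∈ (gaussLoc R' K').nonunits ↔ f ∈ (gaussL R K).nonunits :=
  GaussLoc.gen_mem_nonunits_iff (coeffMap ρ) (coeffMap ρR) (coeffMap_cR_bc ρ ρR hρ)
    (fun β ⟨n, hn⟩ => ⟨n, by rw [coeffMap_coeff]; exact hn.map ρR⟩)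
    (fun α h n => by rw [coeffMap_coeff]; exact hloc _ (h n)) hf

omit hloc in
theorem GaussLoc.twist_cR_bc (ζ : R'ˣ) (α : LaurentSeries R) :
    ((S28.twist (Units.map (algebraMap R' K' : R' →* K') ζ)).comp (coeffMap ρ)) (cR R K α)
      = cR R' K' (S28.twist ζ (coeffMap ρR α)) := by
  rw [RingHom.comp_apply, coeffMap_cR_bc ρ ρR hρ, S28.coeffMap_twist]

/-- the same after the twist `Q ↦ ζ Q`, `ζ` a unit of `R'`. -/
theorem twist_bc_mem_iff (ζ : R'ˣ) {f : LaurentSeries K} (hf : InQF R f) :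
    S28.twist (Units.map (algebraMap R' K' : R' →* K') ζ) (coeffMap ρ f) ∈ gaussLoc R' K' ↔
      f ∈ gaussL R K :=
  GaussLoc.gen_mem_iff ((S28.twist (Units.map (algebraMap R' K' : R' →* K') ζ)).comp (coeffMap ρ))
    (fun α => S28.twist ζ (coeffMap ρR α)) (GaussLoc.twist_cR_bc ρ ρR hρ ζ)
    (fun β ⟨n, hn⟩ => ⟨n, by
      rw [S28.twist_coeff, coeffMap_coeff]; exact (Units.isUnit _).mul (hn.map ρR)⟩)
    (fun α h n => by
      rw [S28.twist_coeff, coeffMap_coeff, Units.isUnit_units_mul]; exact hloc _ (h n)) hf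

theorem twist_bc_mem_nonunits_iff (ζ : R'ˣ) {f : LaurentSeries K} (hf : InQF R f) :
    S28.twist (Units.map (algebraMap R' K' : R' →* K') ζ) (coeffMap ρ f) ∈
      (gaussLoc R' K').nonunits ↔ f ∈ (gaussL R K).nonunits :=
  GaussLoc.gen_mem_nonunits_iff
    ((S28.twist (Units.map (algebraMap R' K' : R' →* K') ζ)).comp (coeffMap ρ))
    (fun α => S28.twist ζ (coeffMap ρR α)) (GaussLoc.twist_cR_bc ρ ρR hρ ζ)
    (fun β ⟨n, hn⟩ => ⟨n, by
      rw [S28.twist_coeff, coeffMap_coeff]; exact (Units.isUnit _).mul (hn.map ρR)⟩)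
    (fun α h n => by
      rw [S28.twist_coeff, coeffMap_coeff, Units.isUnit_units_mul]; exact hloc _ (h n)) hf

end BC

end Fermat.Agent.S36.V3
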