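import Fermat.Agent.S34.V2.Two
import Fermat.Agent.S36.V3.GaussLoc

set_option autoImplicit false
set_option linter.unusedSectionVars false

/-!
# S36/V3 : the abstract three-level context `Three`  (definitions only)

Levels `M` (field `E`), `qM` (field `F1`), `q²M` (field `F`), all ABSTRACT fields (type variables).
`T1 : Two R K q E F1` is the two-level context of `S34/V2`.  `α = algebraMap F1 F`, `β = V_q : F1 → F`,
`w = w_{q²}`, `jm = θ_mid : F → K'((Q))` the expansion at the middle cusp (`K' ⊇ K(ζ_q)`, e.g. `K' = ℚ̄`, `R' = A`).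

* `T.Voo := gaussL.comap jF`, `T.V0 := T.Voo.comap w`, `T.Vmid := gaussLoc.comap jm`.
-/

noncomputable section

namespace Fermat.Agent.S36.V3

open ModularCurve Polynomial IntermediateField Fermat.Agent.S18 Fermat.Agent.S18.V Fermat.Agent.S34.V2

/-- the three-level context. -/
structure Three {R K : Type} [CommRing R] [IsDomain R] [IsDiscreteValuationRing R] [Field K]
    [Algebra R K] [IsFractionRing R K] (R' K' : Type) [CommRing R'] [IsDomain R'] [IsLocalRing R']
    [Field K'] [Algebra R' K'] [IsFractionRing R' K'] {q : ℕ} [NeZero q] {E F1 : Type} (F : Type)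
    [Field E] [Field F1] [Field F] [Algebra K E] [Algebra K F1] [Algebra K F] [Algebra E F1]
    [Algebra F1 F] (T1 : Two R K q E F1) where
  /-- `q`-expansion at `∞`. -/
  jF : F →ₐ[K] LaurentSeries K
  compat : ∀ z : F1, jF (algebraMap F1 F z) = T1.jF z
  inQF : ∀ z, InQF R (jF z)
  /-- `V_q`. -/
  β : F1 →ₐ[K] F
  jF_β : ∀ z, jF (β z) = qExpand K q (T1.jF z)
  /-- the Atkin-Lehner involution `w_{q²}`. -/
  w : F ≃ₐ[K] F
  w_w : ∀ z, w (w z) = z
  w_α : ∀ z : F1, w (algebraMap F1 F z) = β (T1.w z)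
  /-- coefficient extension. -/
  ρ : K →+* K'
  ρR : R →+* R'
  hρ : ∀ r, ρ (algebraMap R K r) = algebraMap R' K' (ρR r)
  hloc : ∀ r, ¬ IsUnit r → ¬ IsUnit (ρR r)
  /-- a primitive `q`-th root of unity. -/
  ζ : R'ˣ
  hζ : IsPrimitiveRoot ζ q
  /-- expansion at the middle cusp. -/
  jm : F →+* LaurentSeries K'
  jm_α : ∀ z : F1, jm (algebraMap F1 F z) = coeffMap ρ (T1.jF z)
  jm_β : ∀ z : F1, jm (β z) =
    S28.twist (Units.map (algebraMap R' K' : R' →* K') ζ) (coeffMap ρ (T1.jF (T1.w z)))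
  fin_α : FiniteDimensional F1 F
  deg_α : Module.finrank F1 F ≤ q
  fin_β : @FiniteDimensional F1 F _ _ β.toRingHom.toAlgebra.toModule
  deg_β : @Module.finrank F1 F _ _ β.toRingHom.toAlgebra.toModule ≤ q
  /-- `R` is unramified. -/
  hunr : Irreducible (q : R)

namespace Three

variable {R K : Type} [CommRing R] [IsDomain R] [IsDiscreteValuationRing R] [Field K]
  [Algebra R K] [IsFractionRing R K] {R' K' : Type} [CommRing R'] [IsDomain R'] [IsLocalRing R']
  [Field K'] [Algebra R' K'] [IsFractionRing R' K'] {q : ℕ} [NeZero q] {E F1 F : Type}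
  [Field E] [Field F1] [Field F] [Algebra K E] [Algebra K F1] [Algebra K F] [Algebra E F1]
  [Algebra F1 F] {T1 : Two R K q E F1} (T : Three R' K' F T1)

/-- the branch `∞`. -/
def Voo : ValuationSubring F := (gaussL R K).comap (T.jF : F →+* LaurentSeries K)

/-- the branch `0`. -/
def V0 : ValuationSubring F := T.Voo.comap (T.w : F →+* F)

/-- the middle branch. -/
def Vmid : ValuationSubring F := (gaussLoc R' K').comap T.jm

/-- `x` at level `q²M`. -/
def xF (_T : Three R' K' F T1) : F := algebraMap F1 F T1.xF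

/-- `x(Q^{q²})`. -/
def xqq : F := T.w T.xF

/-- the uniformiser `x - x(Q^{q²})` of the middle branch. -/
def Y : F := T.xF - T.xqq

/-- `F` as an `F1`-algebra through `β`. -/
abbrev algβ : Algebra F1 F := T.β.toRingHom.toAlgebra

theorem mem_Voo {z : F} : z ∈ T.Voo ↔ T.jF z ∈ gaussL R K := Iff.rfl

theorem mem_V0 {z : F} : z ∈ T.V0 ↔ T.w z ∈ T.Voo := Iff.rfl

theorem mem_Vmid {z : F} : z ∈ T.Vmid ↔ T.jm z ∈ gaussLoc R' K' := Iff.rfl

end Three

end Fermat.Agent.S36.V3
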