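import Fermat.Agent.S36.V3.DegMid

set_option autoImplicit false
set_option linter.unusedSectionVars false

/-!
# S36 / V3 / DegInst : the four `Tor.DegMap` (`α`, `β`) × (`x`, `x⁻¹`) from `T : Three`   (tasks V3-DegMid, V3-DegA, V3-DegB)

`t₀ : E` is the chart parameter at level `M` (`t₀ = T1.x` or `T1.x⁻¹`); the charts at levels `qM`, `q²M` are `algebraMap E F1 t₀`, `algebraMap E F t₀`.

INPUTS (hypotheses): normality transfer from level `M` on the three branches (helper27's `Inst.Side0.nt`), strong M8 at level `qM` (`T1.i2 t₀ ∈ CInt R K (algebraMap E F1 t₀)`, i.e. `x(Q^q)` integral over `R[x]`).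

SKETCHES.
* `sub_w_mem_mid`: `T.mem_Vmid_nonunits`, `map_sub`.  `jm (algebraMap E F y) = coeffMap ρ f`, `f := T1.jE y` (`IsScalarTower.algebraMap_apply E F1 F`, `T.jm_α`, `T1.compat`);
  `jm (w (algebraMap E F y)) = twist ζ' (coeffMap ρ f)` (`T.w_α`, `T.jm_β`, `T1.w_w`, `T1.compat`), `ζ' = Units.map _ T.ζ`.
  `(T1.inQF_E y).exists_frac hy : ∃ a b : LaurentSeries R, (∃ n, IsUnit (b.coeff n)) ∧ f * cR b = cR a`.  Put `A = coeffMap ρR a`, `B = coeffMap ρR b` (over `R'`), `tA = S28.twist T.ζ A`, `tB = S28.twist T.ζ B`.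
  Then `g := coeffMap ρ f - twist ζ' (coeffMap ρ f)` satisfies `g * cR' (B * tB) = cR' (A * tB - tA * B)` (`coeffMap_cR_bc`, `GaussLoc.twist_cR_bc` / `S28.coeffMap_twist`; multiply out),
  `B * tB` is primitive: NOT needed coefficientwise: use instead `fracLoc_mem_nonunits_iff` twice, or valuations: `GaussLoc.val_eq_one` for `B` and `tB` (`tB.coeff n = ζ^n * B.coeff n` unit), so
  `v g = v (cR' (A * tB - tA * B))`, and `A * tB - tA * B = A * (tB - B) - (tA - A) * B` with `X - twist ζ X = C (1 - ζ) * u` for every `X` (`sub_twist_eq_theta T1.hq T.ζ T.hζ X`: `= C(1-ζ) * (u + C (1-ζ) * v)`),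
  so it is `cR' (C (1-ζ)) * cR' (..)`, and `cR' (C (1 - ζ)) ∈ 𝔪` (`cR_mem_nonunits_gaussLoc_iff`, `not_isUnit_lam T1.hq T.ζ T.hζ T.basic_not_isUnit_q`, as in `Y_mem_Vmid_nonunits`).
* `β_map`: `T.jF.injective` (`(T.jF : F →+* _).injective`); `T.jF_β`, `T.compat`, `T1.compat`, `T1.i2_apply`, `T1.w_E`.
* `w_map`: `IsScalarTower.algebraMap_apply E F1 F`, `T.w_α`, `T1.i2_apply`.
* `degMap_α`: `subst`-like: `(γ : F1 →+* F) = algebraMap F1 F` (`RingHom.ext hγ`); `degMap_of T1.hq γ (hs := T.ctx3.split_α) (hr := T.ctx3.rad_α)` (rewrite the ring hom first);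
  `h1`, `h2`: `γ (algebraMap E F1 t₀) = algebraMap E F t₀`, `self_mem_CInt`; `nt_a`, `nt_b`: `y' := algebraMap E F1 y ∈ CInt` by `S34.inst_algHom_CInt (IsScalarTower.toAlgHom K E F1) (self_mem_CInt _) hy`.
* `degMap_β`: `degMap_of T1.hq T.β (hs := T.ctx3.split_β) (hr := T.ctx3.rad_β)`.  `h1`: `T.β_map`, then `inst_algHom_CInt (IsScalarTower.toAlgHom K F1 F)` applied to `hM8` (target parameter `algebraMap F1 F (algebraMap E F1 t₀) = algebraMap E F t₀`, `self_mem_CInt`).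
  `h2`: `inst_algHom_CInt (T1.w : F1 →ₐ[K] F1)` applied to `hM8` gives `algebraMap E F1 t₀ = w (i2 t₀) ∈ CInt R K (i2 t₀)` (`T1.w_w`), then `toAlgHom K F1 F` and `T.β_map`.
  `nt_a`: from `h0`: `y' := T1.i2 y`, `T.β (T1.i2 y) = T.w (algebraMap E F y)` (`w_map`); `T1.i2 y ∈ CInt R K (algebraMap E F1 t₀)` by `inst_algHom_CInt ((T1.w : F1 →ₐ[K] F1).comp (IsScalarTower.toAlgHom K E F1)) hM8 hy`.
  `nt_b`: from `hmid` and `sub_w_mem_mid (hVE y hy)`: `c - β (i2 y) = (c - alg y) + (alg y - w (alg y))`, `S34.add_mem_nonunits`.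
-/

noncomputable section

namespace Fermat.Agent.S36.V3

open ModularCurve Polynomial IntermediateField Fermat.Agent.S18 Fermat.Agent.S18.V Fermat.Agent.S34.V2
open Fermat.Agent.S34 Fermat.Agent.S36.Norm
open Fermat.Agent.S36.Tor (DegMap)

namespace Three

variable {R K : Type} [CommRing R] [IsDomain R] [IsDiscreteValuationRing R] [Field K] [CharZero K]
  [Algebra R K] [IsFractionRing R K] {R' K' : Type} [CommRing R'] [IsDomain R'] [IsLocalRing R']
  [Field K'] [Algebra R' K'] [IsFractionRing R' K'] {q : ℕ} [NeZero q] {E F1 F : Type}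
  [Field E] [Field F1] [Field F] [Algebra K E] [Algebra K F1] [Algebra K F] [Algebra E F1]
  [Algebra F1 F] [Algebra E F] [IsScalarTower K E F1] [IsScalarTower K F1 F] [IsScalarTower E F1 F]
  [IsScalarTower K E F] {T1 : Two R K q E F1} (T : Three R' K' F T1)

/-! ### V3-DegA -/

theorem degMap_α (γ : F1 →ₐ[K] F) (hγ : ∀ z, γ z = algebraMap F1 F z) (t₀ : E)
    (hCr : ∀ y ∈ CInt R K (algebraMap E F1 t₀), y ∈ T1.V0)
    (hoo : ∀ c ∈ CInt R K (algebraMap E F t₀), ∃ y ∈ CInt R K t₀,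
      c - algebraMap E F y ∈ T.Voo.nonunits)
    (hmid : ∀ c ∈ CInt R K (algebraMap E F t₀), ∃ y ∈ CInt R K t₀,
      c - algebraMap E F y ∈ T.Vmid.nonunits) :
    DegMap R q (algebraMap E F1 t₀) (algebraMap E F t₀) γ (normAlong (γ : F1 →+* F)) T1.Vi T1.V0
      T.Voo T.Vmid T.V0 := by
  have hγ' : (γ : F1 →+* F) = algebraMap F1 F := RingHom.ext hγ
  have ht : γ (algebraMap E F1 t₀) = algebraMap E F t₀ := by
    rw [hγ, ← IsScalarTower.algebraMap_apply]
  have hmap : ∀ y : E, γ (algebraMap E F1 y) = algebraMap E F y := fun y => by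
    rw [hγ, ← IsScalarTower.algebraMap_apply]
  have hC : ∀ y ∈ CInt R K t₀, algebraMap E F1 y ∈ CInt R K (algebraMap E F1 t₀) := fun y hy =>
    S34.inst_algHom_CInt (IsScalarTower.toAlgHom K E F1) (self_mem_CInt _) hy
  refine degMap_of T1.hq γ (hs := by rw [hγ']; exact T.ctx3.split_α)
    (hr := by rw [hγ']; exact T.ctx3.rad_α) (by rw [ht]; exact self_mem_CInt _)
    (by rw [ht]; exact self_mem_CInt _) hCr ?_ ?_
  · intro c hc
    obtain ⟨y, hy, h⟩ := hoo c hc
    exact ⟨algebraMap E F1 y, hC y hy, by rw [hmap]; exact h⟩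
  · intro c hc
    obtain ⟨y, hy, h⟩ := hmid c hc
    exact ⟨algebraMap E F1 y, hC y hy, by rw [hmap]; exact h⟩

end Three

end Fermat.Agent.S36.V3
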