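import Fermat.Agent.S36.V3.DegA
import Fermat.Agent.S36.V3.DegB
import Fermat.Agent.S36.Inst.SideFin
import Fermat.Agent.S36.Inst.SideInf
import Fermat.Agent.S36.Inst.M8
import Fermat.Agent.S36.Inst.Rep
import Fermat.Agent.S36.Tor.Rat
import Fermat.Agent.S36.Tor.Loc

set_option autoImplicit false
set_option linter.unusedSectionVars false

/-!
# S36 / V3 / TorA : the two `Tor.TorChart` from `T : Three`  (abstract assembly)

Inputs: `Chart1` at level `M` for `x` and `x⁻¹`, strong M8 at level `qM` for `x` and `x⁻¹`, algebraically closed residue field (`hk`), and the incidence statement `tri`.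
-/

noncomputable section

namespace Fermat.Agent.S36.V3

open ModularCurve Polynomial IntermediateField Fermat.Agent.S18 Fermat.Agent.S18.V Fermat.Agent.S34.V2
open Fermat.Agent.S34 Fermat.Agent.S36.Norm Fermat.Agent.S36.LG Fermat.Agent.S36.Inst
open Fermat.Agent.S36.Tor (DegMap TorChart RepAt)

namespace Three

variable {R K : Type} [CommRing R] [IsDomain R] [IsDiscreteValuationRing R] [Field K] [CharZero K]
  [Algebra R K] [IsFractionRing R K] {R' K' : Type} [CommRing R'] [IsDomain R'] [IsLocalRing R']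
  [Field K'] [Algebra R' K'] [IsFractionRing R' K'] {q : ℕ} [NeZero q] {E F1 F : Type}
  [Field E] [Field F1] [Field F] [Algebra K E] [Algebra K F1] [Algebra K F] [Algebra E F1]
  [Algebra F1 F] [Algebra E F] [IsScalarTower K E F1] [IsScalarTower K F1 F] [IsScalarTower E F1 F]
  [IsScalarTower K E F] {T1 : Two R K q E F1} (T : Three R' K' F T1)

theorem ta_xqq_eq : T.xqq = T.ι₂ T1.x := by
  rw [T.ι₂_apply, ← T.xF_eq]
  rfl

theorem ram_le (j : Fin 3) : ∀ z ∈ (T.Vf j).nonunits, (rE R K F (q : R))⁻¹ * z ^ q ∈ T.Vf j := by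
  intro z hz
  have hq1 : 1 ≤ q := T1.hq.pos
  have hzm : z ∈ T.Vf j := (ValuationSubring.mem_nonunits_iff_exists_mem_maximalIdeal.1 hz).1
  fin_cases j
  · have h := T.unif_oo' z hz
    have e : (rE R K F (q : R))⁻¹ * z ^ q = (rE R K F (q : R))⁻¹ * z * z ^ (q - 1) := by
      rw [mul_assoc, ← pow_succ', Nat.sub_add_cancel hq1]
    rw [e]
    exact mul_mem h (pow_mem hzm _)
  · have h := T.ram_mid z hz
    have e : (rE R K F (q : R))⁻¹ * z ^ q = (rE R K F (q : R))⁻¹ * z ^ (q - 1) * z := by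
      rw [mul_assoc, ← pow_succ, Nat.sub_add_cancel hq1]
    rw [e]
    exact mul_mem h hzm
  · have h := T.unif_0' z hz
    have e : (rE R K F (q : R))⁻¹ * z ^ q = (rE R K F (q : R))⁻¹ * z * z ^ (q - 1) := by
      rw [mul_assoc, ← pow_succ', Nat.sub_add_cancel hq1]
    rw [e]
    exact mul_mem h (pow_mem hzm _)

/-- the chart `x`. -/
theorem torChart_fin (h1 : Chart1 K (q : R) T1.x T1.VE)
    (hM8 : T1.i2 T1.x ∈ CInt R K (algebraMap E F1 T1.x))
    (hk : ∀ P : R[X], P.Monic → P.natDegree ≠ 0 → ∃ z : R, (q : R) ∣ P.eval z)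
    (tri : ∀ n : Ideal (CInt R K T.xF), IsClosedPt (q : R) n →
      (∀ j, Centered (T.Vf j) n) ∨ ∃ j₀, ∀ j, Centered (T.Vf j) n → j = j₀) :
    TorChart (K := K) (q : R) q T.Vf 0 1 2 T1.xF T.xF T.αK T.β (normAlong (T.αK : F1 →+* F))
      (normAlong (T.β : F1 →+* F)) T1.Vi T1.V0 := by
  have hxqq : T.xqq ∈ CInt R K T.xF := by
    rw [T.ta_xqq_eq, T.xF_eq]
    exact T.ι₂_mem hM8
  have hoo := T.side_oo_fin h1
  have hmid := T.side_mid_fin h1
  have h0 := T.side_0_fin h1 hxqq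
  refine
    { vert := T.vertFam h1
      rat := fun n hn => Tor.isRat_of_algClosed T.hunr hk hn
      rep := fun n hn j hc => ?_
      tri := tri
      degα := ?_
      degβ := ?_ }
  · haveI := hn.max.isPrime
    fin_cases j
    · exact repAt_of_side0 T.hunr h1 hoo hc
    · exact repAt_of_side0 T.hunr h1 hmid hc
    · exact repAt_of_side0 T.hunr h1 h0 hc
  · have h := T.degMap_α T.αK (fun _ => rfl) T1.x (fun y hy => T1.CInt_le_V0 hy)
      (fun c hc => hoo.nt T.hunr h1 (by rw [T.xF_eq]; exact hc))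
      (fun c hc => hmid.nt T.hunr h1 (by rw [T.xF_eq]; exact hc))
    rw [← T.xF_eq] at h
    exact h
  · have h := T.degMap_β T1.x hM8 (fun y hy => T1.CInt_le_Vi hy) (fun y hy => h1.C_le T.hunr hy)
      (fun c hc => h0.nt T.hunr h1 (by rw [T.xF_eq]; exact hc))
      (fun c hc => hmid.nt T.hunr h1 (by rw [T.xF_eq]; exact hc))
    rw [← T.xF_eq] at h
    exact h

/-- the chart `x⁻¹`. -/
theorem torChart_inf (h1 : Chart1 K (q : R) T1.x T1.VE) (h1' : Chart1 K (q : R) T1.x⁻¹ T1.VE)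
    (hM8 : T1.i2 T1.x⁻¹ ∈ CInt R K (algebraMap E F1 T1.x⁻¹))
    (hk : ∀ P : R[X], P.Monic → P.natDegree ≠ 0 → ∃ z : R, (q : R) ∣ P.eval z)
    (tri : ∀ n : Ideal (CInt R K T.xF⁻¹), IsClosedPt (q : R) n →
      (∀ j, Centered (T.Vf j) n) ∨ ∃ j₀, ∀ j, Centered (T.Vf j) n → j = j₀) :
    TorChart (K := K) (q : R) q T.Vf 0 1 2 T1.xF⁻¹ T.xF⁻¹ T.αK T.β (normAlong (T.αK : F1 →+* F))
      (normAlong (T.β : F1 →+* F)) T1.Vi T1.V0 := by
  have ex : algebraMap E F T1.x⁻¹ = T.xF⁻¹ := by rw [map_inv₀, ← T.xF_eq]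
  have ex1 : algebraMap E F1 T1.x⁻¹ = T1.xF⁻¹ := by rw [map_inv₀]; rfl
  have hxVE : T1.x⁻¹ ∈ T1.VE := h1'.C_le T.hunr (self_mem_CInt _)
  have hxqq : T.xqq⁻¹ ∈ CInt R K T.xF⁻¹ := by
    rw [T.ta_xqq_eq, ← map_inv₀, ← ex]
    exact T.ι₂_mem hM8
  have hoo := T.side_oo_inf h1
  have hmid := T.side_mid_inf h1
  have h0 := T.side_0_inf h1 hxqq
  refine
    { vert := T.vertFam_inv h1
      rat := fun n hn => Tor.isRat_of_algClosed T.hunr hk hn
      rep := fun n hn j hc => ?_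
      tri := tri
      degα := ?_
      degβ := ?_ }
  · haveI := hn.max.isPrime
    fin_cases j
    · exact repAt_of_side0 T.hunr h1' hoo hc
    · exact repAt_of_side0 T.hunr h1' hmid hc
    · exact repAt_of_side0 T.hunr h1' h0 hc
  · have h := T.degMap_α T.αK (fun _ => rfl) T1.x⁻¹
      (fun y hy => mem_of_isIntegralElem T1.V0 (evR R K (algebraMap E F1 T1.x⁻¹))
        (Two.tb_evR_mem T1.V0 T1.rE_mem_V0 (T1.map_mem_V0.2 hxVE)) hy)
      (fun c hc => hoo.nt T.hunr h1' (by rw [← ex]; exact hc))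
      (fun c hc => hmid.nt T.hunr h1' (by rw [← ex]; exact hc))
    rw [ex, ex1] at h
    exact h
  · have h := T.degMap_β T1.x⁻¹ hM8
      (fun y hy => mem_of_isIntegralElem T1.Vi (evR R K (algebraMap E F1 T1.x⁻¹))
        (Two.tb_evR_mem T1.Vi T1.rE_mem_Vi (T1.map_mem_Vi.2 hxVE)) hy)
      (fun y hy => h1'.C_le T.hunr hy)
      (fun c hc => h0.nt T.hunr h1' (by rw [← ex]; exact hc))
      (fun c hc => hmid.nt T.hunr h1' (by rw [← ex]; exact hc))
    rw [ex, ex1] at h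
    exact h

end Three

end Fermat.Agent.S36.V3
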