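import Fermat.Agent.S34.V2.TwoBranches
import Fermat.Agent.S34.Loc
import Fermat.Agent.S18.KPack

set_option autoImplicit false
set_option linter.unusedSectionVars false

/-!
# S36 / V3 / OutRoot : a root in `K((Q))` from KUMMER at the cusp `∞`

`Winf R K = {z ∈ K[[Q]] : z(0) ∈ R}` is a (rank two) valuation subring of `K((Q))`.  If `t : F` has an expansion of positive order, it contains
`CInt R K t`, and its centre is a closed point `n∞` of the chart `t`.  A unit of the local ring at `n∞` has order `0` and leading coefficient in `Rˣ`.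

`exists_root_series`: if `u = ε h ^ m` locally at every closed point of the chart and the units of `R` are `m`-th powers in `K`, then the expansion of `u` is an `m`-th power in `K((Q))`.
-/

noncomputable section

namespace Fermat.Agent.S36.V3

open Polynomial ModularCurve Fermat.Agent.S18 Fermat.Agent.S34 Fermat.Agent.S34.V2

section W

variable (R K : Type) [CommRing R] [IsDomain R] [IsDiscreteValuationRing R] [Field K]
  [Algebra R K] [IsFractionRing R K]

/-- the subring `{z ∈ K[[Q]] : z(0) ∈ R}` of `K((Q))`. -/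
def WinfS : Subring (LaurentSeries K) :=
  Subring.map (HahnSeries.ofPowerSeries ℤ K)
    (Subring.comap (PowerSeries.constantCoeff (R := K)) (algebraMap R K).range)

variable {R K}

theorem mem_WinfS_iff {z : LaurentSeries K} (hz : z ≠ 0) : z ∈ WinfS R K ↔
    0 < z.order ∨ (z.order = 0 ∧ z.leadingCoeff ∈ (algebraMap R K).range) := by
  constructor
  · rintro ⟨f, hf, rfl⟩
    have hneg : ∀ i : ℤ, i < 0 → (HahnSeries.ofPowerSeries ℤ K f).coeff i = 0 := by
      intro i hi
      have := PowerSeries.coeff_coe f i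
      rw [if_pos hi] at this
      exact this
    have h0 : 0 ≤ (HahnSeries.ofPowerSeries ℤ K f).order := by
      by_contra hlt
      exact hz (HahnSeries.coeff_order_eq_zero.1 (hneg _ (not_le.1 hlt)))
    rcases h0.lt_or_eq with h | h
    · exact Or.inl h
    · refine Or.inr ⟨h.symm, ?_⟩
      have e : (HahnSeries.ofPowerSeries ℤ K f).leadingCoeff = PowerSeries.constantCoeff f := by
        rw [HahnSeries.leadingCoeff_eq, ← h]
        have := PowerSeries.coeff_coe f 0
        rw [if_neg (lt_irrefl _)] at this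
        simpa using this
      rw [e]
      exact hf
  · intro h
    have hord : 0 ≤ z.order := by
      rcases h with h | h
      · exact h.le
      · exact h.1.ge
    refine ⟨PowerSeries.mk fun n => z.coeff n, ?_, ?_⟩
    · change PowerSeries.constantCoeff (PowerSeries.mk fun n : ℕ => z.coeff n) ∈
        (algebraMap R K).range
      rw [← PowerSeries.coeff_zero_eq_constantCoeff_apply, PowerSeries.coeff_mk]
      rcases h with h | h
      · rw [Nat.cast_zero, HahnSeries.coeff_eq_zero_of_lt_order h]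
        exact zero_mem _
      · rw [Nat.cast_zero, ← h.1, ← HahnSeries.leadingCoeff_eq]
        exact h.2
    · ext i
      have := PowerSeries.coeff_coe (PowerSeries.mk fun n : ℕ => z.coeff n) i
      refine this.trans ?_
      split_ifs with hi
      · exact (HahnSeries.coeff_eq_zero_of_lt_order (lt_of_lt_of_le hi hord)).symm
      · rw [PowerSeries.coeff_mk]
        congr 1
        exact Int.natAbs_of_nonneg (not_lt.1 hi)

theorem order_inv' {z : LaurentSeries K} (hz : z ≠ 0) : z⁻¹.order = - z.order := by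
  have h := HahnSeries.order_mul hz (inv_ne_zero hz)
  rw [mul_inv_cancel₀ hz, HahnSeries.order_one] at h
  omega

theorem leadingCoeff_inv' {z : LaurentSeries K} (hz : z ≠ 0) :
    z⁻¹.leadingCoeff = z.leadingCoeff⁻¹ := by
  have h := HahnSeries.leadingCoeff_mul z z⁻¹
  rw [mul_inv_cancel₀ hz, HahnSeries.leadingCoeff_one] at h
  exact eq_inv_of_mul_eq_one_right h.symm

theorem leadingCoeff_pow' (z : LaurentSeries K) (n : ℕ) :
    (z ^ n).leadingCoeff = z.leadingCoeff ^ n := by
  induction n with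
  | zero => rw [pow_zero, pow_zero, HahnSeries.leadingCoeff_one]
  | succ n ih => rw [pow_succ, pow_succ, HahnSeries.leadingCoeff_mul, ih]

variable (R K) in
/-- the valuation subring `{z ∈ K[[Q]] : z(0) ∈ R}` of `K((Q))`. -/
def Winf : ValuationSubring (LaurentSeries K) :=
  { WinfS R K with
    mem_or_inv_mem' := by
      intro z
      by_cases hz : z = 0
      · left
        rw [hz]
        exact (WinfS R K).zero_mem
      change z ∈ WinfS R K ∨ z⁻¹ ∈ WinfS R K
      rw [mem_WinfS_iff hz, mem_WinfS_iff (inv_ne_zero hz), order_inv' hz, leadingCoeff_inv' hz]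
      rcases lt_trichotomy z.order 0 with h | h | h
      · right; left; omega
      · rcases ValuationRing.isInteger_or_isInteger R z.leadingCoeff with ⟨r, hr⟩ | ⟨r, hr⟩
        · left; right; exact ⟨h, r, hr⟩
        · right; right; exact ⟨by omega, r, hr⟩
      · left; left; exact h }

theorem mem_Winf_iff {z : LaurentSeries K} (hz : z ≠ 0) : z ∈ Winf R K ↔
    0 < z.order ∨ (z.order = 0 ∧ z.leadingCoeff ∈ (algebraMap R K).range) :=
  mem_WinfS_iff hz

theorem mem_Winf_nonunits_of_pos {z : LaurentSeries K} (h : 0 < z.order) :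
    z ∈ (Winf R K).nonunits := by
  have hz : z ≠ 0 := by
    rintro rfl
    simp at h
  rw [ValuationSubring.mem_nonunits_iff_or]
  right
  rw [mem_Winf_iff (inv_ne_zero hz), order_inv' hz]
  rintro (h1 | h1) <;> omega

theorem unit_Winf {z : LaurentSeries K} (hz : z ≠ 0) (h1 : z ∈ Winf R K) (h2 : z⁻¹ ∈ Winf R K) :
    z.order = 0 ∧ ∃ r : Rˣ, z.leadingCoeff = algebraMap R K r := by
  rw [mem_Winf_iff hz] at h1
  rw [mem_Winf_iff (inv_ne_zero hz), order_inv' hz, leadingCoeff_inv' hz] at h2
  have h0 : z.order = 0 := by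
    rcases h1 with h1 | h1 <;> rcases h2 with h2 | h2 <;> omega
  obtain ⟨r, hr⟩ : z.leadingCoeff ∈ (algebraMap R K).range := by
    rcases h1 with h1 | h1
    · omega
    · exact h1.2
  obtain ⟨s, hs⟩ : z.leadingCoeff⁻¹ ∈ (algebraMap R K).range := by
    rcases h2 with h2 | h2
    · omega
    · exact h2.2
  have hlc : z.leadingCoeff ≠ 0 := HahnSeries.leadingCoeff_ne_zero.2 hz
  have hrs : r * s = 1 := by
    apply IsFractionRing.injective R K
    rw [map_mul, hr, hs, mul_inv_cancel₀ hlc, map_one]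
  exact ⟨h0, ⟨r, s, hrs, by rw [mul_comm]; exact hrs⟩, hr.symm⟩

theorem const_order (c : K) : (algebraMap K (LaurentSeries K) c).order = 0 := by
  rw [algebraMap_laurentSeries_eq_single]
  by_cases hc : c = 0
  · rw [hc, HahnSeries.single_eq_zero, HahnSeries.order_zero]
  · exact HahnSeries.order_single hc

theorem const_leadingCoeff (c : K) : (algebraMap K (LaurentSeries K) c).leadingCoeff = c := by
  rw [algebraMap_laurentSeries_eq_single, HahnSeries.leadingCoeff_of_single]

theorem const_mem_Winf (r : R) : algebraMap K (LaurentSeries K) (algebraMap R K r) ∈ Winf R K := by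
  by_cases h : algebraMap K (LaurentSeries K) (algebraMap R K r) = 0
  · rw [h]; exact zero_mem _
  · rw [mem_Winf_iff h]
    exact Or.inr ⟨const_order _, by rw [const_leadingCoeff]; exact ⟨r, rfl⟩⟩

theorem const_mem_Winf_nonunits {r : R} (hr : ¬ IsUnit r) :
    algebraMap K (LaurentSeries K) (algebraMap R K r) ∈ (Winf R K).nonunits := by
  rw [ValuationSubring.mem_nonunits_iff_or]
  by_cases h : algebraMap K (LaurentSeries K) (algebraMap R K r) = 0
  · exact Or.inl h
  · right
    intro h2
    obtain ⟨-, u, hu⟩ := unit_Winf h (const_mem_Winf r) h2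
    rw [const_leadingCoeff] at hu
    exact hr ((IsFractionRing.injective R K hu) ▸ u.isUnit)

end W

section centre

variable {R K F : Type} [CommRing R] [IsDomain R] [IsDiscreteValuationRing R] [Field K] [CharZero K]
  [Algebra R K] [IsFractionRing R K] [Field F] [Algebra K F] (jF : F →ₐ[K] LaurentSeries K)

/-- the pull back of `Winf` to `F`. -/
def WF : ValuationSubring F := (Winf R K).comap (jF : F →+* LaurentSeries K)

theorem mem_WF {z : F} : z ∈ WF (R := R) jF ↔ jF z ∈ Winf R K := Iff.rfl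

theorem mem_WF_nonunits {z : F} : z ∈ (WF (R := R) jF).nonunits ↔ jF z ∈ (Winf R K).nonunits :=
  DVR.mem_nonunits_comap _ _ _

theorem rE_mem_WF (r : R) : rE R K F r ∈ WF (R := R) jF := by
  rw [mem_WF]
  have : jF (rE R K F r) = algebraMap K (LaurentSeries K) (algebraMap R K r) := jF.commutes _
  rw [this]
  exact const_mem_Winf r

theorem rE_mem_WF_nonunits {r : R} (hr : ¬ IsUnit r) : rE R K F r ∈ (WF (R := R) jF).nonunits := by
  rw [mem_WF_nonunits]
  have : jF (rE R K F r) = algebraMap K (LaurentSeries K) (algebraMap R K r) := jF.commutes _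
  rw [this]
  exact const_mem_Winf_nonunits hr

variable {t : F} (ht : 0 < (jF t).order)
include ht

theorem CInt_le_WF {c : F} (hc : c ∈ CInt R K t) : c ∈ WF (R := R) jF :=
  mem_of_isIntegralElem (WF (R := R) jF) (evR R K t)
    (Two.tb_evR_mem _ (rE_mem_WF jF)
      (mem_of_mem_nonunits _ ((mem_WF_nonunits jF).2 (mem_Winf_nonunits_of_pos ht)))) hc

/-- the closed point `∞`. -/
def nInf : Ideal (CInt R K t) :=
  (IsLocalRing.maximalIdeal ↥(WF (R := R) jF)).comap
    (Subring.inclusion (fun _ hc => CInt_le_WF jF ht hc :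
      CInt R K t ≤ (WF (R := R) jF).toSubring))

theorem mem_nInf {c : CInt R K t} : c ∈ nInf jF ht ↔ (c : F) ∈ (WF (R := R) jF).nonunits := by
  rw [nInf, Ideal.mem_comap, ← ValuationSubring.coe_mem_nonunits_iff]
  rfl

theorem exists_sub_mem_nInf {c : CInt R K t} (hc : c ∉ nInf jF ht) :
    ∃ r : Rˣ, (c : F) - rE R K F (r : R) ∈ (WF (R := R) jF).nonunits := by
  rw [mem_nInf, ValuationSubring.mem_nonunits_iff_or, not_or, not_not] at hc
  obtain ⟨hc0, hci⟩ := hc
  have hz0 : jF (c : F) ≠ 0 := by rwa [Ne, map_eq_zero]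
  have hci' : (jF (c : F))⁻¹ ∈ Winf R K := by
    rw [← map_inv₀]; exact hci
  obtain ⟨hord, r, hr⟩ := unit_Winf hz0 (CInt_le_WF jF ht c.2) hci'
  refine ⟨r, ?_⟩
  rw [mem_WF_nonunits, map_sub]
  have e : jF (rE R K F (r : R)) = algebraMap K (LaurentSeries K) (algebraMap R K r) :=
    jF.commutes _
  rw [e]
  set y := jF (c : F) - algebraMap K (LaurentSeries K) (algebraMap R K r) with hy
  by_cases hy0 : y = 0
  · rw [hy0, ValuationSubring.mem_nonunits_iff_or]
    exact Or.inl rfl
  apply mem_Winf_nonunits_of_pos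
  by_contra hle
  rw [not_lt] at hle
  apply hy0
  rw [← HahnSeries.coeff_order_eq_zero]
  have key : ∀ i : ℤ, i ≤ 0 → y.coeff i = 0 := by
    intro i hi
    rw [hy, HahnSeries.coeff_sub, algebraMap_laurentSeries_eq_single]
    rcases hi.lt_or_eq with h | h
    · rw [HahnSeries.coeff_eq_zero_of_lt_order (by rw [hord]; exact h),
        HahnSeries.coeff_single_of_ne h.ne, sub_zero]
    · rw [h, HahnSeries.coeff_single_same, ← hr, HahnSeries.leadingCoeff_eq, hord, sub_self]
  exact key _ hle

theorem isClosedPt_nInf {ϖ : R} (hϖ : Irreducible ϖ) : IsClosedPt ϖ (nInf jF ht) where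
  max := by
    rw [Ideal.isMaximal_iff]
    refine ⟨?_, ?_⟩
    · rw [mem_nInf]
      intro h
      rw [ValuationSubring.mem_nonunits_iff] at h
      simp at h
    · intro J x hJ hx hxJ
      obtain ⟨r, hr⟩ := exists_sub_mem_nInf jF ht hx
      have h1 : x - ⟨rE R K F (r : R), rE_mem_CInt t _⟩ ∈ J := hJ ((mem_nInf jF ht).2 hr)
      have h2 : (⟨rE R K F (r : R), rE_mem_CInt t _⟩ : CInt R K t) ∈ J := by
        have := J.sub_mem hxJ h1
        rwa [sub_sub_cancel] at this
      have h3 := J.mul_mem_left (⟨rE R K F ((r⁻¹ : Rˣ) : R), rE_mem_CInt t _⟩ : CInt R K t) h2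
      have h4 : (⟨rE R K F ((r⁻¹ : Rˣ) : R), rE_mem_CInt t _⟩ : CInt R K t) *
          ⟨rE R K F (r : R), rE_mem_CInt t _⟩ = 1 := by
        apply Subtype.ext
        change rE R K F ((r⁻¹ : Rˣ) : R) * rE R K F (r : R) = 1
        rw [← map_mul, Units.inv_mul, map_one]
      rwa [h4] at h3
  mem := (mem_nInf jF ht).2 (rE_mem_WF_nonunits jF hϖ.not_isUnit)

theorem mem_WF_of_inLoc {z : F} (h : InLoc (nInf (R := R) jF ht) z) : z ∈ WF (R := R) jF := by
  obtain ⟨d, hd, hdz⟩ := h
  rw [mem_nInf, ValuationSubring.mem_nonunits_iff_or, not_or, not_not] at hd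
  have e : z = (d : F)⁻¹ * ((d : F) * z) := by rw [inv_mul_cancel_left₀ hd.1]
  rw [e]
  exact mul_mem hd.2 (CInt_le_WF jF ht hdz)

/-- a unit of the local ring at `∞` has order `0` and leading coefficient in `Rˣ`. -/
theorem locUnit_nInf {ε : F} (h : LocUnit (nInf (R := R) jF ht) ε) :
    (jF ε).order = 0 ∧ ∃ r : Rˣ, (jF ε).leadingCoeff = algebraMap R K r := by
  obtain ⟨h0, h1, h2⟩ := h
  refine unit_Winf (by rwa [Ne, map_eq_zero]) (mem_WF_of_inLoc jF ht h1) ?_
  rw [← map_inv₀]
  exact mem_WF_of_inLoc jF ht h2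

/-- **a root in `K((Q))`**. -/
theorem exists_root_series {ϖ : R} (hϖ : Irreducible ϖ) {m : ℕ} (hm : 0 < m)
    (hroot : ∀ r : Rˣ, ∃ d : K, d ^ m = algebraMap R K r) {u : F}
    (hK : ∀ n : Ideal (CInt R K t), IsClosedPt ϖ n →
      ∃ h ε : F, h ≠ 0 ∧ LocUnit n ε ∧ u = ε * h ^ m) :
    ∃ y : LaurentSeries K, y ^ m = jF u := by
  obtain ⟨h, ε, hh, hε, hu⟩ := hK _ (isClosedPt_nInf jF ht hϖ)
  obtain ⟨hord, r, hr⟩ := locUnit_nInf jF ht hε
  obtain ⟨d, hd⟩ := hroot r
  have hε0 : jF ε ≠ 0 := by rw [Ne, map_eq_zero]; exact hε.1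
  have hh0 : jF h ≠ 0 := by rwa [Ne, map_eq_zero]
  have hu' : jF u = jF ε * jF h ^ m := by rw [hu, map_mul, map_pow]
  refine KPack.exists_pow_eq_of_leadingCoeff m hm (jF u) ?_ ?_ (d * (jF h).leadingCoeff) ?_
  · rw [hu']; exact mul_ne_zero hε0 (pow_ne_zero _ hh0)
  · rw [hu', HahnSeries.order_mul hε0 (pow_ne_zero _ hh0), hord, zero_add, HahnSeries.order_pow]
    exact ⟨_, nsmul_eq_mul _ _⟩
  · rw [hu', HahnSeries.leadingCoeff_mul, leadingCoeff_pow', hr, mul_pow, hd]

end centre

end Fermat.Agent.S36.V3
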