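import Fermat.Agent.S36.V3.ThreeCount

set_option autoImplicit false
set_option linter.unusedSectionVars false

/-!
# S36 / V3 / OutW : the involution `w` preserves the middle branch

`Three.comap_w_mid : T.Vmid.comap w = T.Vmid`, `w_mem_Vmid`, `w_mem_Vmid_nonunits`; also `comap_w_oo`, `comap_w_0`.
Proof: `Vmid.comap w` extends `VE` (`w ∘ α ∘ ι = β ∘ w₁ ∘ ι`, `comap_β_mid`), so it is one of the three branches (`eq_of_ext`); `w` exchanges `Voo` and `V0`.
-/

noncomputable section

namespace Fermat.Agent.S36.V3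

open ModularCurve Polynomial IntermediateField Fermat.Agent.S18 Fermat.Agent.S18.V Fermat.Agent.S34.V2

namespace Three

variable {R K : Type} [CommRing R] [IsDomain R] [IsDiscreteValuationRing R] [Field K] [CharZero K]
  [Algebra R K] [IsFractionRing R K] {R' K' : Type} [CommRing R'] [IsDomain R'] [IsLocalRing R']
  [Field K'] [Algebra R' K'] [IsFractionRing R' K'] {q : ℕ} [NeZero q] {E F1 F : Type}
  [Field E] [Field F1] [Field F] [Algebra K E] [Algebra K F1] [Algebra K F] [Algebra E F1]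
  [Algebra F1 F] [Algebra E F] [IsScalarTower K E F1] [IsScalarTower K F1 F] [IsScalarTower E F1 F]
  [IsScalarTower K E F] {T1 : Two R K q E F1} (T : Three R' K' F T1)

theorem comap_w_oo : T.Voo.comap (T.w : F →+* F) = T.V0 := rfl

theorem comap_w_0 : T.V0.comap (T.w : F →+* F) = T.Voo := by
  ext z
  rw [ValuationSubring.mem_comap]
  exact T.w_mem_V0

theorem ow_w_map (y : E) : T.w (algebraMap E F y) = T.β (T1.w (algebraMap E F1 y)) := by
  rw [IsScalarTower.algebraMap_apply E F1 F, T.w_α]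

theorem ow_mem {y : E} : T.w (algebraMap E F y) ∈ T.Vmid ↔ y ∈ T1.VE := by
  have h : T.β (T1.w (algebraMap E F1 y)) ∈ T.Vmid ↔
      T1.w (algebraMap E F1 y) ∈ T.Vmid.comap (T.β : F1 →+* F) := Iff.rfl
  rw [ow_w_map, h, T.comap_β_mid, Two.mem_V0, T1.w_w, T1.compat]
  rfl

theorem ow_mem_nonunits {y : E} : T.w (algebraMap E F y) ∈ T.Vmid.nonunits ↔ y ∈ T1.VE.nonunits := by
  rw [ValuationSubring.mem_nonunits_iff_or, ValuationSubring.mem_nonunits_iff_or, ← map_inv₀,
    ← map_inv₀, ow_mem, map_eq_zero, map_eq_zero]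

theorem comap_w_mid : T.Vmid.comap (T.w : F →+* F) = T.Vmid := by
  have hinv : ∀ V W : ValuationSubring F, V.comap (T.w : F →+* F) = W →
      V = W.comap (T.w : F →+* F) := by
    rintro V W rfl
    ext z
    rw [ValuationSubring.mem_comap, ValuationSubring.mem_comap]
    change _ ↔ T.w (T.w z) ∈ V
    rw [T.w_w]
  rcases T.eq_of_ext (T.Vmid.comap (T.w : F →+* F)) (fun y hy => T.ow_mem.2 hy)
    (fun y hy => (DVR.mem_nonunits_comap _ _ _).2 (T.ow_mem_nonunits.2 hy)) with h | h | h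
  · exact absurd (hinv _ _ h) T.Vmid_ne_V0
  · exact h
  · have := hinv _ _ h
    rw [T.comap_w_0] at this
    exact absurd this.symm T.Voo_ne_Vmid

theorem w_mem_Vmid {z : F} : T.w z ∈ T.Vmid ↔ z ∈ T.Vmid := by
  conv_rhs => rw [← T.comap_w_mid]
  rfl

theorem w_mem_Vmid_nonunits {z : F} : T.w z ∈ T.Vmid.nonunits ↔ z ∈ T.Vmid.nonunits := by
  conv_rhs => rw [← T.comap_w_mid]
  exact (DVR.mem_nonunits_comap (T.w : F →+* F) T.Vmid z).symm

end Three

end Fermat.Agent.S36.V3
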