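import Fermat.Agent.S36.V3.ThreeCount
import Fermat.Agent.S34.V2.TwoBranches

set_option autoImplicit false
set_option linter.unusedSectionVars false

/-!
# S36/V3 : `InO` at level `q²M` is `Voo ∩ Vmid ∩ V0`   (task V3-ThreeBranches)

Verbatim the proofs of `S34/V2/TwoBranches.lean` (`CInt_le_Vi`, `inO_of_mem`, `mem_of_inO`; the helper lemmas `Two.tb_evR_mem`, `Two.tb_mem_CInt_of_coeff` there are general and can be cited), with
`T.integral_of_mem` of `ThreeCount.lean` and `T.xE := algebraMap E F T1.x` (`= T.xF` by the scalar tower).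
-/

noncomputable section

namespace Fermat.Agent.S36.V3

open ModularCurve Polynomial IntermediateField Fermat.Agent.S18 Fermat.Agent.S18.V Fermat.Agent.S34.V2
open Fermat.Agent.S34

namespace Three

variable {R K : Type} [CommRing R] [IsDomain R] [IsDiscreteValuationRing R] [Field K] [CharZero K]
  [Algebra R K] [IsFractionRing R K] {R' K' : Type} [CommRing R'] [IsDomain R'] [IsLocalRing R']
  [Field K'] [Algebra R' K'] [IsFractionRing R' K'] {q : ℕ} [NeZero q] {E F1 F : Type}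
  [Field E] [Field F1] [Field F] [Algebra K E] [Algebra K F1] [Algebra K F] [Algebra E F1]
  [Algebra F1 F] [Algebra E F] [IsScalarTower K E F1] [IsScalarTower K F1 F] [IsScalarTower E F1 F]
  [IsScalarTower K E F] {T1 : Two R K q E F1} (T : Three R' K' F T1)

theorem xF_eq : T.xF = algebraMap E F T1.x := by
  rw [xF, Two.xF, ← IsScalarTower.algebraMap_apply E F1 F]

theorem trans_xF : Transcendental K T.xF := by
  intro halg
  apply T1.trans_xF
  exact (isAlgebraic_algebraMap_iff (algebraMap F1 F).injective).mp halg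

theorem fin_xF (hfinE : FiniteDimensional K⟮T1.x⟯ E) : FiniteDimensional K⟮T.xF⟯ F := by
  have := T.finite_E
  rw [T.xF_eq]
  exact finiteDimensional_tower hfinE

include T in
theorem const (y : F) (hy : IsAlgebraic K y) : y ∈ (algebraMap K F).range := by
  obtain ⟨c, hc⟩ := trans_const (T.jF y) (hy.algHom T.jF)
  refine ⟨c, ?_⟩
  apply T.jF.injective
  exact (T.jF.commutes c).trans hc

theorem CInt_le_Voo {z : F} (hz : z ∈ CInt R K T.xF) : z ∈ T.Voo :=
  mem_of_isIntegralElem T.Voo (evR R K T.xF) (Two.tb_evR_mem T.Voo T.rE_mem_Voo T.xF_mem_Voo) hz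

theorem CInt_le_Vmid {z : F} (hz : z ∈ CInt R K T.xF) : z ∈ T.Vmid :=
  mem_of_isIntegralElem T.Vmid (evR R K T.xF) (Two.tb_evR_mem T.Vmid T.rE_mem_Vmid T.xF_mem_Vmid) hz

theorem CInt_le_V0 {z : F} (hz : z ∈ CInt R K T.xF) : z ∈ T.V0 :=
  mem_of_isIntegralElem T.V0 (evR R K T.xF) (Two.tb_evR_mem T.V0 T.rE_mem_V0 T.xF_mem_V0) hz

theorem inO_of_mem {ϖ : R} (hϖ : Irreducible ϖ) (hE : ∀ y : E, InO K ϖ T1.x y ↔ y ∈ T1.VE) {z : F}
    (hi : z ∈ T.Voo) (hm : z ∈ T.Vmid) (h0 : z ∈ T.V0) : InO K ϖ T.xF z := by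
  classical
  obtain ⟨P, hP, hPc, hPz⟩ := T.integral_of_mem hi hm h0
  choose s hs hsc using fun i => (hE (P.coeff i)).2 (hPc i)
  set S : R[X] := ∏ i ∈ Finset.range P.natDegree, s i with hS
  have hSnd : ¬ C ϖ ∣ S := by
    intro hd
    obtain ⟨i, -, hi⟩ := (prime_C_unif hϖ).exists_mem_finset_dvd hd
    exact hs i hi
  have hSc : ∀ i, i < P.natDegree → evR R K T1.x S * P.coeff i ∈ CInt R K T1.x := by
    intro i hi
    obtain ⟨c, hc⟩ := Finset.dvd_prod_of_mem s (Finset.mem_range.2 hi)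
    rw [hS, hc, map_mul, mul_comm (evR R K T1.x (s i)), mul_assoc]
    exact mul_mem (evR_mem_CInt _ _) (hsc i)
  refine ⟨S, hSnd, ?_⟩
  rw [T.xF_eq]
  have hmap : evR R K (algebraMap E F T1.x) S = algebraMap E F (evR R K T1.x S) :=
    (map_evR T1.x S).symm
  rw [hmap]
  refine Two.tb_mem_CInt_of_coeff (P.scaleRoots (evR R K T1.x S)) ((monic_scaleRoots_iff _).2 hP) ?_
    (scaleRoots_aeval_eq_zero hPz)
  intro i
  rw [coeff_scaleRoots]
  rcases lt_trichotomy i P.natDegree with hi | hi | hi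
  · obtain ⟨k, hk⟩ : ∃ k, P.natDegree - i = k + 1 := ⟨P.natDegree - i - 1, by omega⟩
    rw [hk, pow_succ, ← mul_assoc, mul_comm (P.coeff i * _), ← mul_assoc]
    exact mul_mem (hSc i hi) (pow_mem (evR_mem_CInt _ _) k)
  · rw [hi, Nat.sub_self, pow_zero, mul_one, hP.coeff_natDegree]
    exact one_mem _
  · rw [coeff_eq_zero_of_natDegree_lt hi, zero_mul]
    exact zero_mem _

theorem mem_of_inO {ϖ : R} (hϖ : Irreducible ϖ) (hE : ∀ y : E, InO K ϖ T1.x y ↔ y ∈ T1.VE) {z : F}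
    (hz : InO K ϖ T.xF z) : z ∈ T.Voo ∧ z ∈ T.Vmid ∧ z ∈ T.V0 := by
  obtain ⟨s, hs, h⟩ := hz
  have hs0 : s ≠ 0 := by
    rintro rfl
    exact hs (dvd_zero _)
  have hne : evR R K T1.x s ≠ 0 := by
    intro h0
    exact hs0 (evR_injective (R := R) T1.trans_x (by rw [h0, map_zero]))
  have hinv : (evR R K T1.x s)⁻¹ ∈ T1.VE := by
    rw [← hE]
    exact ⟨s, hs, by rw [mul_inv_cancel₀ hne]; exact one_mem _⟩
  have hmap : evR R K T.xF s = algebraMap E F (evR R K T1.x s) := by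
    rw [T.xF_eq]
    exact (map_evR T1.x s).symm
  have hneF : evR R K T.xF s ≠ 0 := by
    rw [hmap]
    simpa using hne
  have e : z = algebraMap E F (evR R K T1.x s)⁻¹ * (evR R K T.xF s * z) := by
    rw [map_inv₀, ← hmap, inv_mul_cancel_left₀ hneF]
  refine ⟨?_, ?_, ?_⟩
  · rw [e]
    exact mul_mem (T.map_mem_Voo.2 hinv) (T.CInt_le_Voo h)
  · rw [e]
    exact mul_mem (T.map_mem_Vmid.2 hinv) (T.CInt_le_Vmid h)
  · rw [e]
    exact mul_mem (T.map_mem_V0.2 hinv) (T.CInt_le_V0 h)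

theorem inO_iff {ϖ : R} (hϖ : Irreducible ϖ) (hE : ∀ y : E, InO K ϖ T1.x y ↔ y ∈ T1.VE) (z : F) :
    InO K ϖ T.xF z ↔ z ∈ T.Voo ∧ z ∈ T.Vmid ∧ z ∈ T.V0 :=
  ⟨T.mem_of_inO hϖ hE, fun h => T.inO_of_mem hϖ hE h.1 h.2.1 h.2.2⟩

end Three

end Fermat.Agent.S36.V3
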