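import Fermat.Agent.S36.V3.ThreeBasic
import Fermat.Agent.S36.Norm.Defs

set_option autoImplicit false
set_option linter.unusedSectionVars false

/-!
# S36/V3 : the four `Split` / `Rad` instances for chapter NORM   (task V3-ThreeNorm)

`α = algebraMap F1 F`; `β`: `F` is an `F1`-algebra through `T.algβ`.

| map | below | above | type |
| α | `T1.Vi` | `Voo`, `Vmid` | `Split`, `t = Y` |
| α | `T1.V0` | `V0` | `Rad`, `t = xqq`, `y₀ = T1.xq` |
| β | `T1.Vi` | `Voo` | `Rad`, `t = xF`, `y₀ = T1.xF` |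
| β | `T1.V0` | `V0`, `Vmid` | `Split`, `t = Y` |

* `isUnif_i`, `isUnif_0`: `T1.rE_mem_Vi_nonunits`, `T1.unif_i`, `T1.unif_0` (translate `rE ϖ ^ k * z` unit into `HasOrd V π z (-k)`).
* `Split` fields: `T.fin_α`/`T.deg_α` (resp. `T.fin_β`/`T.deg_β`), `comap_*`, `Voo_ne_Vmid` / `Vmid_ne_V0.symm`, `Y_mem_Vmid_nonunits`, `Y_ne_zero`, `unif_div_Y`
  (`algebraMap F1 F (rE R K F1 r) = rE R K F r`: `S34.map_rE`; for `β`: `T.β` is a `K`-algebra hom).
* `rad_β`: `t_pow`: `T.jF (xF^q - β x) = (cR x₀)^q - qExpand q (cR x₀)`, `T1.hfrob` (up to sign: `neg_mem_nonunits`).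
  `t_not`: if `xF - β y ∈ 𝔪_oo` with `y ∈ T1.Vi`: `indep_qExpand q x₀ ..` with `a 0 = - T1.jF y`, `a 1 = 1`, `a k = 0` (`q ≥ 2`) gives `1 ∈ 𝔪`: contradiction.
* `rad_α`: transport `rad_β` by `T.w` (`mem_V0_nonunits`, `T.w_α`, `w_β`, `T1.w_w`; `y ∈ T1.V0 ↔ T1.w y ∈ T1.Vi`).
-/

noncomputable section

namespace Fermat.Agent.S36.V3

open ModularCurve Polynomial IntermediateField Fermat.Agent.S18 Fermat.Agent.S18.V Fermat.Agent.S34.V2
open Fermat.Agent.S36.Norm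

/-- `IsUnif` from the "unit after multiplication by a power" form. -/
theorem isUnif_of_unif {L : Type*} [Field L] (V : ValuationSubring L) (π : L)
    (hπ : π ∈ V.nonunits) (hπ0 : π ≠ 0)
    (hunif : ∀ y : L, y ≠ 0 → ∃ k : ℤ, π ^ k * y ∈ V ∧ (π ^ k * y)⁻¹ ∈ V) : IsUnif V π := by
  refine ⟨hπ, hπ0, fun z hz => ?_⟩
  obtain ⟨k, h1, h2⟩ := hunif z hz
  refine ⟨-k, hz, ?_, ?_⟩
  · rw [zpow_neg, div_inv_eq_mul, mul_comm]; exact h1
  · rw [zpow_neg, div_eq_mul_inv, ← mul_inv]; exact h2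

namespace Three

variable {R K : Type} [CommRing R] [IsDomain R] [IsDiscreteValuationRing R] [Field K] [CharZero K]
  [Algebra R K] [IsFractionRing R K] {R' K' : Type} [CommRing R'] [IsDomain R'] [IsLocalRing R']
  [Field K'] [Algebra R' K'] [IsFractionRing R' K'] {q : ℕ} [NeZero q] {E F1 F : Type}
  [Field E] [Field F1] [Field F] [Algebra K E] [Algebra K F1] [Algebra K F] [Algebra E F1]
  [Algebra F1 F] [IsScalarTower K E F1] [IsScalarTower K F1 F] {T1 : Two R K q E F1}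
  (T : Three R' K' F T1)

include T in
theorem tn_rE_q_ne_zero (L : Type) [Field L] [Algebra K L] : rE R K L (q : R) ≠ 0 := by
  intro h
  have h1 : algebraMap K L (algebraMap R K (q : R)) = 0 := h
  rw [map_eq_zero] at h1
  exact T.hunr.ne_zero ((IsFractionRing.injective R K) (by rw [h1, map_zero]))

include T in
theorem isUnif_i : IsUnif T1.Vi (rE R K F1 (q : R)) :=
  isUnif_of_unif _ _ (T1.rE_mem_Vi_nonunits.mpr T.hunr.not_isUnit) (T.tn_rE_q_ne_zero F1)
    (fun _ hy => T1.unif_i T.hunr hy)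

include T in
theorem isUnif_0 : IsUnif T1.V0 (rE R K F1 (q : R)) :=
  isUnif_of_unif _ _ (T1.rE_mem_V0_nonunits.mpr T.hunr.not_isUnit) (T.tn_rE_q_ne_zero F1)
    (fun _ hy => T1.unif_0 T.hunr hy)

theorem isUnif_oo : IsUnif T.Voo (rE R K F (q : R)) :=
  isUnif_of_unif _ _ (T.rE_mem_Voo_nonunits.mpr T.hunr.not_isUnit) (T.tn_rE_q_ne_zero F)
    (fun _ hy => T.unif_oo T.hunr hy)

theorem isUnif_V0 : IsUnif T.V0 (rE R K F (q : R)) :=
  isUnif_of_unif _ _ (T.rE_mem_V0_nonunits.mpr T.hunr.not_isUnit) (T.tn_rE_q_ne_zero F)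
    (fun _ hy => T.unif_0 T.hunr hy)

theorem tn_α_rE (r : R) : algebraMap F1 F (rE R K F1 r) = rE R K F r :=
  (IsScalarTower.algebraMap_apply K F1 F _).symm

theorem tn_β_rE (r : R) : T.β (rE R K F1 r) = rE R K F r := T.β.commutes _

theorem tn_natCast_eq_rE (L : Type) [Field L] [Algebra K L] : (q : L) = rE R K L (q : R) :=
  (map_natCast (rE R K L) q).symm

theorem split_α : Split q T1.Vi (rE R K F1 (q : R)) T.Voo T.Vmid T.Y where
  fin := T.fin_α
  finrank_le := T.deg_α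
  unif := T.isUnif_i
  comap_a := T.comap_α_oo
  comap_b := T.comap_α_mid
  ne := T.Voo_ne_Vmid
  t_mem := T.Y_mem_Vmid_nonunits
  t_ne := T.Y_ne_zero
  t_dvd := by rw [tn_α_rE]; exact T.unif_div_Y

theorem split_β : @Split F1 F _ _ T.algβ q T1.V0 (rE R K F1 (q : R)) T.V0 T.Vmid T.Y :=
  @Split.mk F1 F _ _ T.algβ q T1.V0 (rE R K F1 (q : R)) T.V0 T.Vmid T.Y T.fin_β T.deg_β T.isUnif_0
    T.comap_β_0 T.comap_β_mid T.Vmid_ne_V0.symm T.Y_mem_Vmid_nonunits T.Y_ne_zero (by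
      have e : @algebraMap F1 F _ _ T.algβ (rE R K F1 (q : R)) = rE R K F (q : R) := T.tn_β_rE _
      rw [e]; exact T.unif_div_Y)

theorem tn_jF_xF : T.jF T.xF = cR R K T1.x₀ := by
  rw [xF, T.compat, Two.xF, T1.compat, T1.hx]

theorem tn_xF_pow_sub : T.xF ^ q - T.β T1.xF ∈ T.Voo.nonunits := by
  rw [mem_Voo_nonunits, map_sub, map_pow, T.jF_β, tn_jF_xF, Two.xF, T1.compat, T1.hx]
  have h := T1.hfrob
  rw [ValuationSubring.mem_nonunits_iff] at h ⊢
  rwa [← Valuation.map_neg, neg_sub]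

theorem tn_xF_sub_notMem {y : F1} (hy : y ∈ T1.Vi) : T.xF - T.β y ∉ T.Voo.nonunits := by
  intro h
  rw [mem_Voo_nonunits, map_sub, T.jF_β, tn_jF_xF] at h
  have hq2 : 2 ≤ q := T1.hq.two_le
  let b : Fin q → F1 := fun k => if (k : ℕ) = 0 then -y else if (k : ℕ) = 1 then 1 else 0
  have hb : ∀ k, b k ∈ T1.Vi := by
    intro k
    simp only [b]
    split_ifs
    · exact neg_mem hy
    · exact one_mem _
    · exact zero_mem _
  have hsum : ∑ k, qExpand K q (T1.jF (b k)) * cR R K T1.x₀ ^ (k : ℕ) =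
      cR R K T1.x₀ - qExpand K q (T1.jF y) := by
    rw [Finset.sum_eq_add (⟨0, by omega⟩ : Fin q) (⟨1, by omega⟩ : Fin q)
      (by intro hc; simpa using congrArg Fin.val hc)
      (by
        intro c _ hc
        have h0 : (c : ℕ) ≠ 0 := fun h0 => hc.1 (Fin.ext h0)
        have h1 : (c : ℕ) ≠ 1 := fun h1 => hc.2 (Fin.ext h1)
        simp only [b, if_neg h0, if_neg h1, map_zero, zero_mul])
      (fun hc => absurd (Finset.mem_univ _) hc) (fun hc => absurd (Finset.mem_univ _) hc)]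
    simp only [b, if_true, pow_zero, mul_one, map_neg, one_ne_zero, if_false, map_one, pow_one,
      one_mul]
    ring
  have := indep_qExpand q T1.x₀ T1.hord T1.hlead (fun k => T1.jF (b k)) (fun k => T1.inQF _)
    (fun k => hb k) (by rw [hsum]; exact h) ⟨1, by omega⟩
  simp only [b, one_ne_zero, if_false, if_true, map_one] at this
  rw [ValuationSubring.mem_nonunits_iff, map_one] at this
  exact lt_irrefl _ this

theorem rad_β : @Rad F1 F _ _ T.algβ q T1.Vi (rE R K F1 (q : R)) T.Voo T.xF T1.xF :=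
  @Rad.mk F1 F _ _ T.algβ q T1.Vi (rE R K F1 (q : R)) T.Voo T.xF T1.xF T.fin_β T.deg_β T.isUnif_i
    T.comap_β_oo (by
      rw [tn_natCast_eq_rE (R := R) (K := K) F1]
      exact T1.rE_mem_Vi_nonunits.mpr T.hunr.not_isUnit)
    T.xF_mem_Voo T1.xF_mem_Vi T.tn_xF_pow_sub (fun _ hy => T.tn_xF_sub_notMem hy)

theorem rad_α : Rad q T1.V0 (rE R K F1 (q : R)) T.V0 T.xqq T1.xq where
  fin := T.fin_α
  finrank_le := T.deg_α
  unif := T.isUnif_0
  comap := T.comap_α_0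
  q_mem := by
    rw [tn_natCast_eq_rE (R := R) (K := K) F1]
    exact T1.rE_mem_V0_nonunits.mpr T.hunr.not_isUnit
  t_mem := T.xqq_mem_V0
  y_mem := T1.xq_mem_V0
  t_pow := by
    rw [mem_V0_nonunits, map_sub, map_pow, xqq, T.w_w, T.w_α, Two.xq, T1.w_w]
    exact T.tn_xF_pow_sub
  t_not := by
    intro y hy h
    rw [mem_V0_nonunits, map_sub, xqq, T.w_w, T.w_α] at h
    exact T.tn_xF_sub_notMem (T1.mem_V0'.1 hy) h

end Three

end Fermat.Agent.S36.V3
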