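import Fermat.Agent.S36.V3.GaussLoc

set_option autoImplicit false
set_option linter.unusedSectionVars false

/-!
# S36/V3 : `x(Q) - x(ζ Q) = (1 - ζ) * (Gauss unit)`, `q = unit * (1 - ζ)^(q-1)`   (task V3-Cyclo)

`R'` a local domain in which the prime `q` is not a unit, `ζ : R'ˣ` a primitive `q`-th root of unity, `λ = 1 - ζ`.

## Sketches
* `exists_geom`: `1 - ζ^n = (1 - ζ)(1 + ζ + ⋯ + ζ^(n-1))` for `n ≥ 0` (`Commute.mul_geom_sum`/`mul_neg_geom_sum`), for `n < 0` use `ζ^n = ζ^(n + q k)`.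
  If `q ∤ n` choose `m` with `n m ≡ 1 mod q`: `1 - ζ = 1 - (ζ^n)^m = (1 - ζ^n) c'`, so `c c' = 1` (cancel `1 - ζ ≠ 0`).
* `natCast_eq`: `∏_{k=1}^{q-1} (1 - ζ^k) = q` (`IsPrimitiveRoot.…`: evaluate `∏ (X - ζ^k) = 1 + X + ⋯ + X^(q-1)` at `1`; Mathlib: `Polynomial.cyclotomic_prime`,
  `IsPrimitiveRoot.cyclotomic_eq..`/`Polynomial.cyclotomic_eq_prod_X_sub_primitiveRoots`, `Polynomial.eval_one_cyclotomic_prime`,
  or `IsPrimitiveRoot.sub_one_norm_prime`-style lemmas; needs `IsDomain`), each factor is `(1 - ζ) * unit`.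
* `not_isUnit_lam`: otherwise `q` would be a unit.
* `sub_twist_eq`: coefficientwise `a_n - ζ^n a_n = λ c_n a_n`; define `u` with coefficients `c_n a_n` (support contained in that of `x₀`); `c_{-1}` is a unit.
-/

noncomputable section

namespace Fermat.Agent.S36.V3

open ModularCurve Fermat.Agent.S18 Fermat.Agent.S18.V Fermat.Agent.S34.V2

namespace Cyclo

/-- multiply the `n`-th coefficient by `c n`. -/
def mulCoeff {A : Type} [CommRing A] (c : ℤ → A) (x : LaurentSeries A) : LaurentSeries A :=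
  { coeff := fun n => c n * x.coeff n
    isPWO_support' := x.isPWO_support.mono (by
      intro n hn
      simp only [Function.mem_support, ne_eq] at hn
      exact fun h => hn (by rw [h, mul_zero])) }

theorem mulCoeff_coeff {A : Type} [CommRing A] (c : ℤ → A) (x : LaurentSeries A) (n : ℤ) :
    (mulCoeff c x).coeff n = c n * x.coeff n := rfl

/-- reduction of the exponent modulo `q`. -/
theorem zpow_eq_pow {A : Type} [CommRing A] {q : ℕ} (hq0 : 0 < q) (η : Aˣ) (hη : η ^ q = 1)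
    (n : ℤ) : η ^ n = η ^ (n % q).toNat := by
  have h1 : 0 ≤ n % (q : ℤ) := Int.emod_nonneg n (by exact_mod_cast hq0.ne')
  have h2 : ((n % (q : ℤ)).toNat : ℤ) = n % q := Int.toNat_of_nonneg h1
  conv_lhs => rw [← Int.emod_add_mul_ediv n q]
  rw [zpow_add, zpow_mul, zpow_natCast, hη, one_zpow, mul_one, ← h2, zpow_natCast, h2]

theorem geom_unit {A : Type} [CommRing A] {q : ℕ} (hq0 : 0 < q) (η : Aˣ) (hη : η ^ q = 1)
    (n : ℤ) : ∃ c : A, 1 - ((η ^ n : Aˣ) : A) = (1 - (η : A)) * c := by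
  rw [zpow_eq_pow hq0 η hη n, Units.val_pow_eq_pow_val]
  exact ⟨_, (mul_neg_geom_sum _ _).symm⟩

theorem theta_nat {A : Type} [CommRing A] (ζ : Aˣ) (k : ℕ) :
    ∃ d : A, 1 - (ζ : A) ^ k = (1 - (ζ : A)) * (k : A) + (1 - (ζ : A)) ^ 2 * d := by
  induction k with
  | zero => exact ⟨0, by simp⟩
  | succ k ih =>
    obtain ⟨d, hd⟩ := ih
    refine ⟨d - k - (1 - (ζ : A)) * d, ?_⟩
    have h1 : (ζ : A) ^ k = 1 - ((1 - (ζ : A)) * (k : A) + (1 - (ζ : A)) ^ 2 * d) := by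
      rw [← hd]; ring
    rw [pow_succ, h1]
    push_cast
    ring

end Cyclo

variable {R' : Type} [CommRing R'] [IsDomain R'] [IsLocalRing R'] {q : ℕ} (hq : q.Prime)
  (ζ : R'ˣ) (hζ : IsPrimitiveRoot ζ q)

include hq hζ

theorem lam_ne_zero : (1 - (ζ : R')) ≠ 0 := by
  intro h
  have h1 : (ζ : R') = 1 := (sub_eq_zero.1 h).symm
  exact hζ.ne_one hq.one_lt (Units.val_eq_one.1 h1)

open Cyclo in
theorem exists_geom (n : ℤ) :
    ∃ c : R', 1 - ((ζ ^ n : R'ˣ) : R') = (1 - (ζ : R')) * c ∧ (¬ (q : ℤ) ∣ n → IsUnit c) := by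
  obtain ⟨c, hc⟩ := geom_unit hq.pos ζ hζ.pow_eq_one n
  refine ⟨c, hc, fun hn => ?_⟩
  have hcop : IsCoprime (q : ℤ) n :=
    ((Nat.prime_iff_prime_int.1 hq).irreducible.coprime_iff_not_dvd).2 hn
  obtain ⟨a, b, hab⟩ := hcop
  have hη : (ζ ^ n) ^ q = 1 := by
    rw [← zpow_natCast, ← zpow_mul, mul_comm, zpow_mul, zpow_natCast, hζ.pow_eq_one, one_zpow]
  obtain ⟨c', hc'⟩ := geom_unit hq.pos (ζ ^ n) hη b
  have e : (ζ ^ n) ^ b = ζ := by
    have h1 : n * b = 1 - a * q := by linarith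
    rw [← zpow_mul, h1, zpow_sub, zpow_one, mul_comm a, zpow_mul, zpow_natCast, hζ.pow_eq_one,
      one_zpow, inv_one, mul_one]
  rw [e, hc, mul_assoc] at hc'
  have h2 : c * c' = 1 := by
    have h3 : (1 - (ζ : R')) * 1 = (1 - (ζ : R')) * (c * c') := by rw [mul_one]; exact hc'
    exact (mul_left_cancel₀ (lam_ne_zero hq ζ hζ) h3).symm
  exact IsUnit.of_mul_eq_one _ h2

theorem natCast_eq : ∃ u : R'ˣ, (q : R') = u * (1 - (ζ : R')) ^ (q - 1) := by
  obtain ⟨n, rfl⟩ : ∃ n, q = n + 1 := ⟨q - 1, by have := hq.pos; omega⟩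
  have hμ : IsPrimitiveRoot (ζ : R') (n + 1) := IsPrimitiveRoot.coe_units_iff.2 hζ
  have h1 := hμ.prod_one_sub_pow_eq_order
  choose c hc using fun k : ℕ => exists_geom hq ζ hζ ((k + 1 : ℕ) : ℤ)
  have h2 : ∀ k ∈ Finset.range n, (1 - (ζ : R') ^ (k + 1)) = (1 - (ζ : R')) * c k := by
    intro k _
    have := (hc k).1
    rwa [zpow_natCast, Units.val_pow_eq_pow_val] at this
  have h3 : IsUnit (∏ k ∈ Finset.range n, c k) := by
    rw [IsUnit.prod_iff]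
    intro k hk
    refine (hc k).2 ?_
    intro hd
    have h4 : (n + 1) ∣ (k + 1) := by exact_mod_cast hd
    have h5 := Nat.le_of_dvd (Nat.succ_pos k) h4
    have h6 := Finset.mem_range.1 hk
    omega
  rw [Finset.prod_congr rfl h2, Finset.prod_mul_distrib, Finset.prod_const, Finset.card_range] at h1
  refine ⟨h3.unit, ?_⟩
  rw [IsUnit.unit_spec, Nat.add_sub_cancel, mul_comm]
  push_cast
  exact h1.symm

theorem not_isUnit_lam (hqR : ¬ IsUnit (q : R')) : ¬ IsUnit (1 - (ζ : R')) := by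
  intro h
  obtain ⟨u, hu⟩ := natCast_eq hq ζ hζ
  exact hqR (hu ▸ u.isUnit.mul (h.pow _))

open Cyclo in
/-- `x(Q) - x(ζ Q) = (1 - ζ) u`, `u` primitive. -/
theorem sub_twist_eq (x₀ : LaurentSeries R') (hlead : IsUnit (x₀.coeff (-1))) :
    ∃ u : LaurentSeries R', (∃ n, IsUnit (u.coeff n)) ∧
      x₀ - S28.twist ζ x₀ = HahnSeries.C (1 - (ζ : R')) * u := by
  choose c hc using exists_geom hq ζ hζ
  refine ⟨mulCoeff c x₀, ⟨-1, ?_⟩, ?_⟩
  · rw [mulCoeff_coeff]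
    refine ((hc (-1)).2 ?_).mul hlead
    intro hd
    have h1 : (q : ℤ) ∣ 1 := by simpa using hd
    have h2 : q ∣ 1 := by exact_mod_cast h1
    exact hq.one_lt.ne' (Nat.dvd_one.1 h2)
  · ext n
    rw [HahnSeries.C_mul_eq_smul, HahnSeries.coeff_smul, HahnSeries.coeff_sub, S28.twist_coeff,
      mulCoeff_coeff, smul_eq_mul, ← mul_assoc, ← (hc n).1]
    ring

open Cyclo in
theorem Cyclo.theta_int (n : ℤ) :
    ∃ d : R', 1 - ((ζ ^ n : R'ˣ) : R') = (1 - (ζ : R')) * (n : R') + (1 - (ζ : R')) ^ 2 * d := by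
  obtain ⟨u, hu⟩ := natCast_eq hq ζ hζ
  obtain ⟨d, hd⟩ := theta_nat ζ (n % (q : ℤ)).toNat
  have h1 : 0 ≤ n % (q : ℤ) := Int.emod_nonneg n (by exact_mod_cast hq.pos.ne')
  have h2 : ((n % (q : ℤ)).toNat : ℤ) = n % q := Int.toNat_of_nonneg h1
  have h3 : (n : R') = (((n % (q : ℤ)).toNat : ℕ) : R') + (q : R') * ((n / (q : ℤ) : ℤ) : R') := by
    have h4 : n = ((n % (q : ℤ)).toNat : ℤ) + (q : ℤ) * (n / q) := by
      rw [h2, Int.emod_add_mul_ediv]
    conv_lhs => rw [h4]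
    push_cast
    ring
  obtain ⟨s, hs⟩ : ∃ s, q - 1 = s + 1 := ⟨q - 2, by have := hq.two_le; omega⟩
  refine ⟨d - (u : R') * (1 - (ζ : R')) ^ s * ((n / (q : ℤ) : ℤ) : R'), ?_⟩
  rw [zpow_eq_pow hq.pos ζ hζ.pow_eq_one n, Units.val_pow_eq_pow_val, hd, h3, hu, hs]
  ring

open Cyclo in
/-- more precisely `x(Q) - x(ζ Q) ≡ (1 - ζ) θ x  mod (1 - ζ)^2`, `θ = Q d/dQ`. -/
theorem sub_twist_eq_theta (x₀ : LaurentSeries R') :
    ∃ u v : LaurentSeries R', (∀ n, u.coeff n = (n : R') * x₀.coeff n) ∧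
      x₀ - S28.twist ζ x₀ = HahnSeries.C (1 - (ζ : R')) * u + HahnSeries.C ((1 - (ζ : R')) ^ 2) * v := by
  choose d hd using Cyclo.theta_int hq ζ hζ
  refine ⟨mulCoeff (fun n => (n : R')) x₀, mulCoeff d x₀, fun n => rfl, ?_⟩
  ext n
  rw [HahnSeries.C_mul_eq_smul, HahnSeries.C_mul_eq_smul, HahnSeries.coeff_add, HahnSeries.coeff_smul,
    HahnSeries.coeff_smul, HahnSeries.coeff_sub, S28.twist_coeff, mulCoeff_coeff, mulCoeff_coeff,
    smul_eq_mul, smul_eq_mul]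
  have := hd n
  linear_combination (x₀.coeff n) * this

end Fermat.Agent.S36.V3
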