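import Fermat.Agent.S36.Tor.Defs
import Fermat.Agent.S36.Norm.Along
import Fermat.Agent.S36.LG.Ring
import Fermat.Agent.S34.Inst.Basic

set_option autoImplicit false
set_option linter.unusedSectionVars false

/-!
# S36 / V3 / DegAbs : `Tor.DegMap` from `Norm.SplitAlong` + `Norm.RadAlong` + integrality of the chart parameters   (task V3-DegAbs)

`γ : F' →ₐ[K] F`, charts `t' : F'`, `t : F` with `γ t' ∈ CInt R K t` and `t ∈ CInt R K (γ t')`  (so `CInt R K t = CInt R K (γ t')` is the integral closure of `γ (CInt R K t')`).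

SKETCH.
* `CInt_le_of_mem`: `S34.inst_algHom_CInt (AlgHom.id K F) h hz`.
* `exists_monic_of_mem`: `c ∈ CInt R K (γ t')` is `∃ P : R[X][X], P.Monic ∧ P.eval₂ (evR R K (γ t')) c = 0`; take `P.map (evR R K t')`: coefficients `evR_mem_CInt`; `Polynomial.eval_map`, `Polynomial.eval₂_map`,
  `(γ : F' →+* F).comp (evR R K t') = evR R K (γ t')` (`RingHom.ext fun s => S34.ss_algHom_evR γ t' s`).
* `norm_mem_CInt`: `letI := (γ : F' →+* F).toAlgebra`; `c` is integral over the subring `CInt R K t'` of `F'` acting through `γ`; cheapest: `letI : Algebra (CInt R K t') F := ((γ : F' →+* F).comp (CInt R K t').subtype).toAlgebra`,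
  `IsScalarTower (CInt R K t') F' F` (`IsScalarTower.of_algebraMap_eq fun _ => rfl`), `IsIntegral (CInt R K t') c` from `exists_monic_of_mem` (lift the coefficients to the subring: `Polynomial.toSubring` or `Polynomial.lifts`),
  `Algebra.isIntegral_norm F' : IsIntegral A x → IsIntegral A (Algebra.norm F' x)`, then `LG.mem_CInt_of_isIntegral`.
* `degMap_of`: `mapC := inst_algHom_CInt γ h1`; `normC`, `integral` from the above (via `CInt_le_of_mem h2`); `norm_map := hs.norm_map hq.two_le`; `comap_*`: `hs.comap_a`, `hs.comap_b`, `hr.comap` (`ValuationSubring.mem_comap`, `← h ▸ Iff.rfl`);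
  `nt_c`: `c = 0`: `y = 0`.  `c ≠ 0`: `y := normAlong γ c ∈ CInt R K t'`; `hr.near_pow_norm hq hc : Near Vc (c^q) (γ y)` i.e. `c^q / γ y - 1 ∈ 𝔪`; multiply by `γ y ∈ Vc` (`hC' y _` + `comap_c`): `c^q - γ y = γ y * (c^q / γ y - 1)`;
  `norm_split := fun u ya yb => hs.norm_near hq.two_le`; `norm_rad := fun u hu => hr.near_pow_norm hq hu`.
-/

noncomputable section

namespace Fermat.Agent.S36.V3

open Polynomial IntermediateField Fermat.Agent.S18 Fermat.Agent.S34 Fermat.Agent.S36.Norm
open Fermat.Agent.S36.Tor (DegMap)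

variable {R K F' F : Type} [CommRing R] [IsDomain R] [IsDiscreteValuationRing R] [Field K]
  [CharZero K] [Algebra R K] [IsFractionRing R K] [Field F'] [Algebra K F'] [Field F] [Algebra K F]

theorem CInt_le_of_mem {t s : F} (h : t ∈ CInt R K s) {z : F} (hz : z ∈ CInt R K t) :
    z ∈ CInt R K s :=
  inst_algHom_CInt (AlgHom.id K F) h hz

theorem exists_monic_of_mem (γ : F' →ₐ[K] F) {t' : F'} {c : F} (hc : c ∈ CInt R K (γ t')) :
    ∃ P : F'[X], P.Monic ∧ (∀ i, P.coeff i ∈ CInt R K t') ∧
      (P.map (γ : F' →+* F)).eval c = 0 := by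
  obtain ⟨P, hP, h0⟩ := hc
  refine ⟨P.map (evR R K t'), hP.map _, fun i => ?_, ?_⟩
  · rw [coeff_map]
    exact evR_mem_CInt t' _
  · have hcomp : (γ : F' →+* F).comp (evR R K t') = evR R K (γ t') :=
      RingHom.ext fun s => ss_algHom_evR γ t' s
    rw [Polynomial.map_map, hcomp, eval_map]
    exact h0

theorem norm_mem_CInt (γ : F' →ₐ[K] F) {t' : F'} {c : F} (hc : c ∈ CInt R K (γ t')) :
    normAlong (γ : F' →+* F) c ∈ CInt R K t' := by
  letI : Algebra F' F := (γ : F' →+* F).toAlgebra
  letI : Algebra (CInt R K t') F := ((γ : F' →+* F).comp (CInt R K t').subtype).toAlgebra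
  haveI : IsScalarTower (CInt R K t') F' F := IsScalarTower.of_algebraMap_eq fun _ => rfl
  obtain ⟨P, hP, h0⟩ := hc
  have hint : IsIntegral (CInt R K t') c := by
    let ψ : R[X] →+* CInt R K t' :=
      (evR R K t').codRestrict (CInt R K t') (fun s => evR_mem_CInt t' s)
    refine ⟨P.map ψ, hP.map ψ, ?_⟩
    have hcomp : (algebraMap (CInt R K t') F).comp ψ = evR R K (γ t') :=
      RingHom.ext fun s => ss_algHom_evR γ t' s
    rw [eval₂_map, hcomp]
    exact h0
  have h1 : IsIntegral (CInt R K t') (Algebra.norm F' c) := Algebra.isIntegral_norm F' hint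
  exact LG.mem_CInt_of_isIntegral h1

theorem degMap_of {q : ℕ} (hq : q.Prime) (γ : F' →ₐ[K] F) {t' : F'} {t : F}
    {Vs Vr : ValuationSubring F'} {Va Vb Vc : ValuationSubring F} {ϖ' yr : F'} {ts tr : F}
    (hs : SplitAlong (γ : F' →+* F) q Vs ϖ' Va Vb ts) (hr : RadAlong (γ : F' →+* F) q Vr ϖ' Vc tr yr)
    (h1 : γ t' ∈ CInt R K t) (h2 : t ∈ CInt R K (γ t')) (hC' : ∀ y ∈ CInt R K t', y ∈ Vr)
    (nt_a : ∀ c ∈ CInt R K t, ∃ y ∈ CInt R K t', c - γ y ∈ Va.nonunits)
    (nt_b : ∀ c ∈ CInt R K t, ∃ y ∈ CInt R K t', c - γ y ∈ Vb.nonunits) :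
    DegMap R q t' t γ (normAlong (γ : F' →+* F)) Vs Vr Va Vb Vc :=
  haveI : CharZero F' := charZero_of_injective_algebraMap (algebraMap K F').injective
  { mapC := fun y hy => inst_algHom_CInt γ h1 hy
    normC := fun c hc => norm_mem_CInt γ (CInt_le_of_mem h2 hc)
    norm_map := fun y => hs.norm_map hq.two_le y
    integral := fun c hc => exists_monic_of_mem γ (CInt_le_of_mem h2 hc)
    comap_a := fun y => by rw [← hs.comap_a]; rfl
    comap_b := fun y => by rw [← hs.comap_b]; rfl
    comap_c := fun y => by rw [← hr.comap]; rfl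
    nt_a := nt_a
    nt_b := nt_b
    nt_c := fun c hc => by
      by_cases hc0 : c = 0
      · refine ⟨0, zero_mem _, ?_⟩
        rw [hc0, map_zero, sub_zero, zero_pow hq.ne_zero]
        exact (ValuationSubring.mem_nonunits_iff _).2 (by rw [map_zero]; exact zero_lt_one)
      · have hy : normAlong (γ : F' →+* F) c ∈ CInt R K t' := norm_mem_CInt γ (CInt_le_of_mem h2 hc)
        refine ⟨_, hy, ?_⟩
        obtain ⟨hne, hone⟩ := hr.near_pow_norm hq hc0
        have hmem : γ (normAlong (γ : F' →+* F) c) ∈ Vc := by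
          have := hC' _ hy
          rw [← hr.comap] at this
          exact this
        have e : c ^ q - γ (normAlong (γ : F' →+* F) c) =
            γ (normAlong (γ : F' →+* F) c) * (c ^ q / γ (normAlong (γ : F' →+* F) c) - 1) := by
          have hne' : γ (normAlong (γ : F' →+* F) c) ≠ 0 := hne
          field_simp
        rw [e]
        exact mul_mem_nonunits _ hmem hone
    norm_split := fun u ya yb ha hb => hs.norm_near hq.two_le ha hb
    norm_rad := fun u hu => hr.near_pow_norm hq hu }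

end Fermat.Agent.S36.V3
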