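import Fermat.Agent.S36.V3.ThreeNorm
import Fermat.Agent.S36.Norm.Five

set_option autoImplicit false
set_option linter.unusedSectionVars false

/-!
# S36 / V3 / OutCtx : the three-branch context `Norm.Ctx3` from `Three`

* `RK R K : ValuationSubring K` : the valuation subring `R ⊆ K` (`mem_RK`, `RK_eq` for `R = ↥B`).
* `Three.ctx3 : Norm.Ctx3 q (RK R K) (q : K) (algebraMap F1 F) T.β T1.Vi T1.V0 T.Voo T.Vmid T.V0 T.Y T.xqq T.xF T1.xq T1.xF`.
-/

noncomputable section

namespace Fermat.Agent.S36.V3

open ModularCurve Polynomial IntermediateField Fermat.Agent.S18 Fermat.Agent.S18.V Fermat.Agent.S34.V2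
open Fermat.Agent.S36.Norm

section RK

variable (R K : Type) [CommRing R] [IsDomain R] [IsDiscreteValuationRing R] [Field K]
  [Algebra R K] [IsFractionRing R K]

/-- `R` as a valuation subring of `K`. -/
def RK : ValuationSubring K := (gaussL R K).comap (algebraMap K (LaurentSeries K))

variable {R K}

theorem mem_RK {c : K} : c ∈ RK R K ↔ ∃ r : R, algebraMap R K r = c := by
  constructor
  · intro hc
    by_cases hc0 : c = 0
    · exact ⟨0, by rw [hc0, map_zero]⟩
    rcases ValuationRing.isInteger_or_isInteger R c with ⟨r, hr⟩ | ⟨r, hr⟩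
    · exact ⟨r, hr⟩
    · by_cases hu : IsUnit r
      · obtain ⟨u, rfl⟩ := hu
        refine ⟨((u⁻¹ : Rˣ) : R), ?_⟩
        have h1 : algebraMap R K (u : R) * algebraMap R K ((u⁻¹ : Rˣ) : R) = 1 := by
          rw [← map_mul, Units.mul_inv, map_one]
        rw [hr] at h1
        field_simp at h1
        exact h1
      · exfalso
        have h1 : cst R K r ∈ (gaussL R K).nonunits := (cst_mem_nonunits_iff r).2 hu
        have h2 : algebraMap K (LaurentSeries K) c ∈ gaussL R K := hc
        have h3 : cst R K r * algebraMap K (LaurentSeries K) c = 1 := by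
          change algebraMap K (LaurentSeries K) (algebraMap R K r) * _ = 1
          rw [hr, ← map_mul, inv_mul_cancel₀ hc0, map_one]
        rw [ValuationSubring.mem_nonunits_iff] at h1
        rw [← ValuationSubring.valuation_le_one_iff] at h2
        have h4 := mul_lt_one_of_lt_of_le h1 h2
        rw [← map_mul, h3, map_one] at h4
        exact lt_irrefl _ h4
  · rintro ⟨r, rfl⟩
    exact cst_mem_gaussL r

theorem RK_eq (B : ValuationSubring K) [IsDiscreteValuationRing ↥B] : RK ↥B K = B := by
  ext c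
  rw [mem_RK]
  exact ⟨fun ⟨r, hr⟩ => hr ▸ r.2, fun h => ⟨⟨c, h⟩, rfl⟩⟩

end RK

theorem toAlgebra_algebraMap (A B : Type*) [CommSemiring A] [CommSemiring B] [i : Algebra A B] :
    (algebraMap A B).toAlgebra = i :=
  Algebra.algebra_ext _ _ fun _ => rfl

/-- pull back of a uniformiser. -/
theorem isUnif_comap {X Y : Type*} [Field X] [Field Y] (f : X →+* Y) {V : ValuationSubring Y} {π : X}
    (h : IsUnif V (f π)) : IsUnif (V.comap f) π := by
  refine ⟨(nu_comap_iff _ _ _).2 h.mem, fun e => h.ne_zero (by rw [e, map_zero]), fun z hz => ?_⟩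
  obtain ⟨k, hk⟩ := h.exists_ord (f z) (by rwa [Ne, map_eq_zero])
  exact ⟨k, (hasOrd_comap_iff _ _ _ _ _).2 hk⟩

namespace Three

variable {R K : Type} [CommRing R] [IsDomain R] [IsDiscreteValuationRing R] [Field K] [CharZero K]
  [Algebra R K] [IsFractionRing R K] {R' K' : Type} [CommRing R'] [IsDomain R'] [IsLocalRing R']
  [Field K'] [Algebra R' K'] [IsFractionRing R' K'] {q : ℕ} [NeZero q] {E F1 F : Type}
  [Field E] [Field F1] [Field F] [Algebra K E] [Algebra K F1] [Algebra K F] [Algebra E F1]
  [Algebra F1 F] [IsScalarTower K E F1] [IsScalarTower K F1 F] {T1 : Two R K q E F1}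
  (T : Three R' K' F T1)

omit [NeZero q] [CharZero K] in
theorem oc_rE_q (L : Type) [Field L] [Algebra K L] : rE R K L (q : R) = algebraMap K L (q : K) := by
  rw [map_natCast, map_natCast]

theorem comap_RK_i : T1.Vi.comap (algebraMap K F1) = RK R K := by
  ext c
  rw [ValuationSubring.mem_comap, Two.mem_Vi, AlgHom.commutes]
  rfl

theorem comap_RK_0 : T1.V0.comap (algebraMap K F1) = RK R K := by
  ext c
  rw [ValuationSubring.mem_comap, Two.mem_V0, AlgEquiv.commutes, AlgHom.commutes]
  rfl

include T in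
theorem isUnif_RK : IsUnif (RK R K) (q : K) := by
  rw [← comap_RK_i (T1 := T1)]
  apply isUnif_comap
  rw [← oc_rE_q (R := R)]
  exact T.isUnif_i

/-- **the three-branch context of chapter NORM**. -/
theorem ctx3 : Ctx3 q (RK R K) (q : K) (algebraMap F1 F) (T.β : F1 →+* F) T1.Vi T1.V0 T.Voo T.Vmid T.V0
    T.Y T.xqq T.xF T1.xq T1.xF where
  hq := T1.hq
  map_α := fun c => (IsScalarTower.algebraMap_apply K F1 F c).symm
  map_β := fun c => T.β.commutes c
  unifK := T.isUnif_RK
  comap_i := comap_RK_i
  comap_0 := comap_RK_0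
  ne' := T1.Vi_ne_V0
  split_α := by
    rw [SplitAlong, toAlgebra_algebraMap, ← oc_rE_q (R := R)]
    exact T.split_α
  rad_α := by
    rw [RadAlong, toAlgebra_algebraMap, ← oc_rE_q (R := R)]
    exact T.rad_α
  rad_β := by
    rw [RadAlong, ← oc_rE_q (R := R)]
    exact T.rad_β
  split_β := by
    rw [SplitAlong, ← oc_rE_q (R := R)]
    exact T.split_β

end Three

end Fermat.Agent.S36.V3
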