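import Fermat.Agent.S36.Inst.FromThree
import Fermat.Agent.S36.V3.OutCtx

set_option autoImplicit false
set_option linter.unusedSectionVars false

/-!
# S36 / V3 / OutWA : `hram` and `hWA` of `Tor.toric` for `T.Vf`

* `Three.ram_all : ∀ j, ∀ z ∈ (T.Vf j).nonunits, (rE q)⁻¹ * z ^ q ∈ T.Vf j`;
* `Three.exists_wa : ∀ ci cm c0 : R` units, `∃ g, g - ci ∈ 𝔪_oo ∧ g - cm ∈ 𝔪_mid ∧ g - c0 ∈ 𝔪_0`.
-/

noncomputable section

namespace Fermat.Agent.S36.V3

open ModularCurve Polynomial IntermediateField Fermat.Agent.S18 Fermat.Agent.S18.V Fermat.Agent.S34.V2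
open Fermat.Agent.S34 Fermat.Agent.S36.Norm

namespace Three

variable {R K : Type} [CommRing R] [IsDomain R] [IsDiscreteValuationRing R] [Field K] [CharZero K]
  [Algebra R K] [IsFractionRing R K] {R' K' : Type} [CommRing R'] [IsDomain R'] [IsLocalRing R']
  [Field K'] [Algebra R' K'] [IsFractionRing R' K'] {q : ℕ} [NeZero q] {E F1 F : Type}
  [Field E] [Field F1] [Field F] [Algebra K E] [Algebra K F1] [Algebra K F] [Algebra E F1]
  [Algebra F1 F] [Algebra E F] [IsScalarTower K E F1] [IsScalarTower K F1 F] [IsScalarTower E F1 F]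
  [IsScalarTower K E F] {T1 : Two R K q E F1} (T : Three R' K' F T1)

theorem ram_all : ∀ j, ∀ z ∈ (T.Vf j).nonunits, (rE R K F (q : R))⁻¹ * z ^ q ∈ T.Vf j := by
  have hq : (q - 1) + 1 = q := by have := T1.hq.two_le; omega
  intro j z hz
  have e : (rE R K F (q : R))⁻¹ * z ^ q = (rE R K F (q : R))⁻¹ * z * z ^ (q - 1) := by
    rw [mul_assoc, ← pow_succ', hq]
  have e' : (rE R K F (q : R))⁻¹ * z ^ q = (rE R K F (q : R))⁻¹ * z ^ (q - 1) * z := by
    rw [mul_assoc, ← pow_succ, hq]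
  fin_cases j
  · rw [e]
    exact mul_mem (T.unif_oo' z hz) (pow_mem (nu_mem hz) _)
  · rw [e']
    exact mul_mem (T.ram_mid z hz) (nu_mem hz)
  · rw [e]
    exact mul_mem (T.unif_0' z hz) (pow_mem (nu_mem hz) _)

omit [NeZero q] [CharZero K] in
theorem wa_sub_of_near {V : ValuationSubring F} (hV : ∀ r : R, rE R K F r ∈ V) {g : F} {c : R}
    (h : Near V g (rE R K F c)) : g - rE R K F c ∈ V.nonunits := by
  obtain ⟨hc, h1⟩ := h
  have e : g - rE R K F c = rE R K F c * (g / rE R K F c - 1) := by field_simp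
  rw [e]
  exact nu_mul_left (hV c) h1

theorem exists_wa (ci cm c0 : R) (hi : IsUnit ci) (hm : IsUnit cm) (h0 : IsUnit c0) :
    ∃ g : F, g - rE R K F ci ∈ (T.Vf 0).nonunits ∧ g - rE R K F cm ∈ (T.Vf 1).nonunits ∧
      g - rE R K F c0 ∈ (T.Vf 2).nonunits := by
  have hne : ∀ c : R, IsUnit c → rE R K F c ≠ 0 := fun c hc => (hc.map (rE R K F)).ne_zero
  have : CharZero F1 := charZero_of_injective_algebraMap (algebraMap K F1).injective
  have h := T.ctx3
  obtain ⟨g, h1, h2, h3⟩ := exists_near3 h.unif_i h.unif_m h.unif_0 h.ne_im h.ne_i0 h.ne_m0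
    (hne ci hi) (hne cm hm) (hne c0 h0)
  exact ⟨g, wa_sub_of_near T.rE_mem_Voo h1, wa_sub_of_near T.rE_mem_Vmid h2,
    wa_sub_of_near T.rE_mem_V0 h3⟩

end Three

end Fermat.Agent.S36.V3
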