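import Fermat.Agent.S36.V3.Three
import Fermat.Agent.S36.V3.Cyclo
import Fermat.Agent.S34.V2.TwoBasic

set_option autoImplicit false
set_option linter.unusedSectionVars false

/-!
# S36/V3 : basic API of the three-level context   (task V3-ThreeBasic)

Translations of `S34/V2/Gauss, OpsQ, Indep, TwoBasic` and `V3/GaussLoc, Cyclo` through `T.jF`, `T.jm`, `T.w`, `T.β`.

* nonunits of a `comap`: `S18.DVR.mem_nonunits_comap`.
* `w_β`: `T.w (T.β z) = T.w (T.β (T1.w (T1.w z))) = T.w (T.w (α (T1.w z)))` (`T1.w_w`, `T.w_α`, `T.w_w`).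
* comaps (`ValuationSubring.ext`, `ValuationSubring.mem_comap`): `α_oo`: `T.compat`.  `β_oo`: `T.jF_β` + `qExpand_mem_iff` (`T1.inQF`).
  `α_0`: `T.w_α` + `β_oo`.  `β_0`: `w_β` + `α_oo`.  `α_mid`: `T.jm_α` + `bc_mem_iff`.  `β_mid`: `T.jm_β` + `twist_bc_mem_iff`.
* `jm_Y`: `T.Y = α x - w (α x) = α x - β (T1.w x)`; `T.jm_α`, `T.jm_β`, `T1.w_w`; `T1.jF T1.xF = T1.jE T1.x = cR x₀` (`T1.compat`, `T1.hx`), `coeffMap_cR_bc`,
  and `twist (cR' a) = cR' (twist a)`.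
* `Y_mem_Vmid_nonunits`, `unif_div_Y`, `Y_pow_div_unif`: `sub_twist_eq` gives `jm Y = cR' (C λ * u)`, `u` primitive, `λ = 1 - ζ` a nonunit (`not_isUnit_lam`, `T.hloc` for `q`);
  `natCast_eq`: `q = unit * λ^(q-1)`; `jm (rE q) = cR' (C q)`; `fracLoc_mem`.
* `Y_unit_oo`: `jF Y = cR (x₀ - qExpand (q*q) x₀)` has the unit coefficient `-lead` at `-(q*q)` (`qExpand_qExpand`, as in `sub_pow_notMem_nonunits`).
  `w_Y : T.w T.Y = - T.Y`.
* distinctness: `Y ∈ 𝔪_mid`, `Y ∉ 𝔪_oo`; the other two because the comaps along `α` differ (`T1.Vi_ne_V0`).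
-/

noncomputable section

namespace Fermat.Agent.S36.V3

open ModularCurve Polynomial IntermediateField Fermat.Agent.S18 Fermat.Agent.S18.V Fermat.Agent.S34.V2

namespace Three

variable {R K : Type} [CommRing R] [IsDomain R] [IsDiscreteValuationRing R] [Field K] [CharZero K]
  [Algebra R K] [IsFractionRing R K] {R' K' : Type} [CommRing R'] [IsDomain R'] [IsLocalRing R']
  [Field K'] [Algebra R' K'] [IsFractionRing R' K'] {q : ℕ} [NeZero q] {E F1 F : Type}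
  [Field E] [Field F1] [Field F] [Algebra K E] [Algebra K F1] [Algebra K F] [Algebra E F1]
  [Algebra F1 F] [IsScalarTower K E F1] [IsScalarTower K F1 F] {T1 : Two R K q E F1}
  (T : Three R' K' F T1)

theorem mem_Voo_nonunits {z : F} : z ∈ T.Voo.nonunits ↔ T.jF z ∈ (gaussL R K).nonunits := by
  exact DVR.mem_nonunits_comap _ _ _

theorem mem_V0_nonunits {z : F} : z ∈ T.V0.nonunits ↔ T.w z ∈ T.Voo.nonunits := by
  exact DVR.mem_nonunits_comap _ _ _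

theorem mem_Vmid_nonunits {z : F} : z ∈ T.Vmid.nonunits ↔ T.jm z ∈ (gaussLoc R' K').nonunits := by
  exact DVR.mem_nonunits_comap _ _ _

theorem w_mem_V0 {z : F} : T.w z ∈ T.V0 ↔ z ∈ T.Voo := by
  rw [mem_V0, T.w_w]

theorem w_mem_V0_nonunits {z : F} : T.w z ∈ T.V0.nonunits ↔ z ∈ T.Voo.nonunits := by
  rw [mem_V0_nonunits, T.w_w]

theorem w_β (z : F1) : T.w (T.β z) = algebraMap F1 F (T1.w z) := by
  have h := T.w_α (T1.w z)
  rw [T1.w_w] at h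
  rw [← h, T.w_w]

theorem comap_α_oo : T.Voo.comap (algebraMap F1 F) = T1.Vi := by
  ext z
  rw [ValuationSubring.mem_comap, mem_Voo, T.compat, Two.mem_Vi]

theorem comap_α_mid : T.Vmid.comap (algebraMap F1 F) = T1.Vi := by
  ext z
  rw [ValuationSubring.mem_comap, mem_Vmid, T.jm_α, bc_mem_iff T.ρ T.ρR T.hρ T.hloc (T1.inQF z),
    Two.mem_Vi]

theorem comap_β_oo : T.Voo.comap (T.β : F1 →+* F) = T1.Vi := by
  ext z
  rw [ValuationSubring.mem_comap, mem_Voo]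
  change T.jF (T.β z) ∈ _ ↔ _
  rw [T.jF_β, qExpand_mem_iff q (T1.inQF z), Two.mem_Vi]

theorem comap_α_0 : T.V0.comap (algebraMap F1 F) = T1.V0 := by
  ext z
  rw [ValuationSubring.mem_comap, mem_V0, T.w_α, Two.mem_V0', ← T.comap_β_oo]
  rfl

theorem comap_β_mid : T.Vmid.comap (T.β : F1 →+* F) = T1.V0 := by
  ext z
  rw [ValuationSubring.mem_comap, mem_Vmid]
  change T.jm (T.β z) ∈ _ ↔ _
  rw [T.jm_β, twist_bc_mem_iff T.ρ T.ρR T.hρ T.hloc T.ζ (T1.inQF _), Two.mem_V0]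

theorem comap_β_0 : T.V0.comap (T.β : F1 →+* F) = T1.V0 := by
  ext z
  rw [ValuationSubring.mem_comap, mem_V0]
  change T.w (T.β z) ∈ _ ↔ _
  rw [T.w_β, Two.mem_V0', ← T.comap_α_oo]
  rfl

theorem jF_rE (r : R) : T.jF (rE R K F r) = cst R K r := by
  exact T.jF.commutes _

theorem w_rE (r : R) : T.w (rE R K F r) = rE R K F r := by
  exact T.w.commutes _

theorem rE_eq_map (r : R) : rE R K F r = algebraMap F1 F (rE R K F1 r) := by
  exact IsScalarTower.algebraMap_apply K F1 F _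

theorem rE_mem_Voo (r : R) : rE R K F r ∈ T.Voo := by
  rw [mem_Voo, jF_rE]; exact cst_mem_gaussL r

theorem rE_mem_Vmid (r : R) : rE R K F r ∈ T.Vmid := by
  have h : rE R K F1 r ∈ T.Vmid.comap (algebraMap F1 F) := by
    rw [T.comap_α_mid]; exact T1.rE_mem_Vi r
  rw [rE_eq_map (F1 := F1)]; exact h

theorem rE_mem_V0 (r : R) : rE R K F r ∈ T.V0 := by
  rw [mem_V0, w_rE]; exact T.rE_mem_Voo r

theorem rE_mem_Voo_nonunits {r : R} : rE R K F r ∈ T.Voo.nonunits ↔ ¬ IsUnit r := by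
  rw [mem_Voo_nonunits, jF_rE, cst_mem_nonunits_iff]

theorem rE_mem_Vmid_nonunits {r : R} : rE R K F r ∈ T.Vmid.nonunits ↔ ¬ IsUnit r := by
  rw [rE_eq_map (F1 := F1), ← DVR.mem_nonunits_comap, T.comap_α_mid, T1.rE_mem_Vi_nonunits]

theorem rE_mem_V0_nonunits {r : R} : rE R K F r ∈ T.V0.nonunits ↔ ¬ IsUnit r := by
  rw [mem_V0_nonunits, w_rE, rE_mem_Voo_nonunits]

theorem unif_oo {ϖ : R} (hϖ : Irreducible ϖ) {z : F} (hz : z ≠ 0) :
    ∃ k : ℤ, rE R K F ϖ ^ k * z ∈ T.Voo ∧ (rE R K F ϖ ^ k * z)⁻¹ ∈ T.Voo := by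
  have hz' : T.jF z ≠ 0 := by rwa [Ne, map_eq_zero]
  obtain ⟨k, h1, h2⟩ := (T.inQF z).exists_unit hϖ hz'
  refine ⟨k, ?_, ?_⟩
  · rw [mem_Voo, map_mul, map_zpow₀, jF_rE]; exact h1
  · rw [mem_Voo, map_inv₀, map_mul, map_zpow₀, jF_rE]; exact h2

theorem unif_0 {ϖ : R} (hϖ : Irreducible ϖ) {z : F} (hz : z ≠ 0) :
    ∃ k : ℤ, rE R K F ϖ ^ k * z ∈ T.V0 ∧ (rE R K F ϖ ^ k * z)⁻¹ ∈ T.V0 := by
  have hz' : T.w z ≠ 0 := by rwa [Ne, map_eq_zero]
  obtain ⟨k, h1, h2⟩ := T.unif_oo hϖ hz'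
  refine ⟨k, ?_, ?_⟩
  · rw [mem_V0, map_mul, map_zpow₀, w_rE]; exact h1
  · rw [mem_V0, map_inv₀, map_mul, map_zpow₀, w_rE]; exact h2

theorem div_unif_oo {ϖ : R} (hϖ : Irreducible ϖ) {z : F} (hz : z ∈ T.Voo.nonunits) :
    z / rE R K F ϖ ∈ T.Voo := by
  rw [mem_Voo, map_div₀, jF_rE]
  exact (T.inQF z).div_unif hϖ (T.mem_Voo_nonunits.mp hz)

theorem div_unif_0 {ϖ : R} (hϖ : Irreducible ϖ) {z : F} (hz : z ∈ T.V0.nonunits) :
    z / rE R K F ϖ ∈ T.V0 := by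
  rw [mem_V0, map_div₀, w_rE]
  exact T.div_unif_oo hϖ (T.mem_V0_nonunits.mp hz)

theorem xF_mem_Voo : T.xF ∈ T.Voo := by
  have h : T1.xF ∈ T.Voo.comap (algebraMap F1 F) := by
    rw [T.comap_α_oo]; exact T1.xF_mem_Vi
  exact h

theorem xF_mem_Vmid : T.xF ∈ T.Vmid := by
  have h : T1.xF ∈ T.Vmid.comap (algebraMap F1 F) := by
    rw [T.comap_α_mid]; exact T1.xF_mem_Vi
  exact h

theorem xF_mem_V0 : T.xF ∈ T.V0 := by
  have h : T1.xF ∈ T.V0.comap (algebraMap F1 F) := by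
    rw [T.comap_α_0]; exact T1.xF_mem_V0
  exact h

theorem xqq_eq : T.xqq = T.β T1.xq := T.w_α T1.xF

theorem xqq_mem_Voo : T.xqq ∈ T.Voo := by
  have h : T1.xq ∈ T.Voo.comap (T.β : F1 →+* F) := by
    rw [T.comap_β_oo]; exact T1.xq_mem_Vi
  rw [xqq_eq]; exact h

theorem xqq_mem_Vmid : T.xqq ∈ T.Vmid := by
  have h : T1.xq ∈ T.Vmid.comap (T.β : F1 →+* F) := by
    rw [T.comap_β_mid]; exact T1.xq_mem_V0
  rw [xqq_eq]; exact h

theorem xqq_mem_V0 : T.xqq ∈ T.V0 := by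
  have h : T1.xq ∈ T.V0.comap (T.β : F1 →+* F) := by
    rw [T.comap_β_0]; exact T1.xq_mem_V0
  rw [xqq_eq]; exact h

theorem jF_xqq : T.jF T.xqq = qExpand K q (qExpand K q (cR R K T1.x₀)) := by
  rw [xqq_eq, T.jF_β]
  have e1 : T1.jF T1.xq = qExpand K q (T1.jE T1.x) := T1.w_E T1.x
  rw [e1, T1.hx]

theorem jF_xF : T.jF T.xF = cR R K T1.x₀ := by
  have e2 : T1.jF T1.xF = T1.jE T1.x := T1.compat T1.x
  change T.jF (algebraMap F1 F T1.xF) = _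
  rw [T.compat, e2, T1.hx]

theorem jm_Y : T.jm T.Y =
    cR R' K' (coeffMap T.ρR T1.x₀ - S28.twist T.ζ (coeffMap T.ρR T1.x₀)) := by
  have e2 : T1.jF T1.xF = T1.jE T1.x := T1.compat T1.x
  have e0 : T1.w T1.xq = T1.xF := T1.w_w _
  have e3 : T.jm T.xF = cR R' K' (coeffMap T.ρR T1.x₀) := by
    change T.jm (algebraMap F1 F T1.xF) = _
    rw [T.jm_α, e2, ← T1.hx, coeffMap_cR_bc T.ρ T.ρR T.hρ]
  have e4 : T.jm T.xqq = cR R' K' (S28.twist T.ζ (coeffMap T.ρR T1.x₀)) := by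
    rw [xqq_eq, T.jm_β, e0, e2, ← T1.hx, coeffMap_cR_bc T.ρ T.ρR T.hρ]
    exact (S28.coeffMap_twist _ _ _).symm
  rw [Y, map_sub, e3, e4, map_sub]

theorem w_Y : T.w T.Y = - T.Y := by
  rw [Y, map_sub, xqq, T.w_w]; ring

theorem basic_jF_Y_prim :
    Prim (T1.x₀ - qExpand R q (qExpand R q T1.x₀)) := by
  refine ⟨(q : ℤ) * ((q : ℤ) * (-1)), ?_⟩
  rw [HahnSeries.coeff_sub, qExpand_coeff_mul, qExpand_coeff_mul]
  have hq2 : (2 : ℤ) ≤ q := by exact_mod_cast T1.hq.two_le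
  have h0 : T1.x₀.coeff ((q : ℤ) * ((q : ℤ) * (-1))) = 0 := by
    apply HahnSeries.coeff_eq_zero_of_lt_order
    rw [T1.hord]
    nlinarith
  rw [h0, zero_sub]
  exact T1.hlead.neg

theorem basic_jF_Y : T.jF T.Y = cR R K (T1.x₀ - qExpand R q (qExpand R q T1.x₀)) := by
  rw [Y, map_sub, jF_xF, jF_xqq, qExpand_cR, qExpand_cR, map_sub]

theorem basic_Y_notMem : T.Y ∉ T.Voo.nonunits := by
  rw [mem_Voo_nonunits, basic_jF_Y]
  exact cR_notMem_nonunits (basic_jF_Y_prim (T1 := T1))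

theorem Y_ne_zero : T.Y ≠ 0 := by
  intro h
  apply T.basic_Y_notMem
  rw [h, ValuationSubring.mem_nonunits_iff, map_zero]
  exact zero_lt_one

include T in
theorem basic_not_isUnit_q : ¬ IsUnit (q : R') := by
  have h := T.hloc (q : R) T1.hqR
  rwa [map_natCast] at h

/-- `jm Y = λ * u`, `u` a Gauss unit. -/
theorem basic_exists_u : ∃ u : LaurentSeries R', (∃ n, IsUnit (u.coeff n)) ∧
    T.jm T.Y = cR R' K' (HahnSeries.C (1 - (T.ζ : R'))) * cR R' K' u := by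
  have hlead : IsUnit ((coeffMap T.ρR T1.x₀).coeff (-1)) := by
    rw [coeffMap_coeff]; exact T1.hlead.map T.ρR
  obtain ⟨u, hu, h⟩ := sub_twist_eq T1.hq T.ζ T.hζ (coeffMap T.ρR T1.x₀) hlead
  exact ⟨u, hu, by rw [jm_Y, h, map_mul]⟩

theorem Y_mem_Vmid_nonunits : T.Y ∈ T.Vmid.nonunits := by
  obtain ⟨u, -, h⟩ := T.basic_exists_u
  rw [mem_Vmid_nonunits, h, ← map_mul, cR_mem_nonunits_gaussLoc_iff]
  intro n hn
  rw [HahnSeries.C_mul_eq_smul, HahnSeries.coeff_smul, smul_eq_mul] at hn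
  exact not_isUnit_lam T1.hq T.ζ T.hζ T.basic_not_isUnit_q (isUnit_of_mul_isUnit_left hn)

theorem basic_jm_q : T.jm (rE R K F (q : R)) = (q : LaurentSeries K') := by
  rw [map_natCast, map_natCast]

theorem basic_cR_u {u : LaurentSeries R'} (hu : ∃ n, IsUnit (u.coeff n)) :
    cR R' K' u ≠ 0 ∧ (cR R' K' u)⁻¹ ∈ gaussLoc R' K' := by
  have h1 : cR R' K' u ∉ (gaussLoc R' K').nonunits := by
    rw [cR_mem_nonunits_gaussLoc_iff]
    intro h
    obtain ⟨n, hn⟩ := hu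
    exact h n hn
  rw [DVR.mem_nonunits_iff_inv, not_or, not_not] at h1
  exact h1

/-- `q / Y^(q-1) ∈ Vmid`. -/
theorem unif_div_Y : rE R K F (q : R) / T.Y ^ (q - 1) ∈ T.Vmid := by
  obtain ⟨u, hu, h⟩ := T.basic_exists_u
  obtain ⟨υ, hυ⟩ := natCast_eq T1.hq T.ζ T.hζ
  obtain ⟨hu0, hu1⟩ := basic_cR_u (K' := K') hu
  have hl0 : cR R' K' (HahnSeries.C (1 - (T.ζ : R'))) ≠ 0 := by
    intro h0
    apply T.Y_ne_zero
    rw [h0, zero_mul] at h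
    exact (map_eq_zero T.jm).1 h
  have hq' : (q : LaurentSeries K') = cR R' K' (HahnSeries.C (υ : R')) *
      cR R' K' (HahnSeries.C (1 - (T.ζ : R'))) ^ (q - 1) := by
    rw [← map_pow, ← map_pow, ← map_mul, ← map_mul, ← hυ, map_natCast, map_natCast]
  rw [mem_Vmid, map_div₀, map_pow, basic_jm_q, h, hq']
  have e : cR R' K' (HahnSeries.C (υ : R')) * cR R' K' (HahnSeries.C (1 - (T.ζ : R'))) ^ (q - 1) /
      (cR R' K' (HahnSeries.C (1 - (T.ζ : R'))) * cR R' K' u) ^ (q - 1) =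
      cR R' K' (HahnSeries.C (υ : R')) * ((cR R' K' u)⁻¹) ^ (q - 1) := by
    rw [mul_pow, inv_pow]
    field_simp
  rw [e]
  exact mul_mem (cR_mem_gaussLoc _) (pow_mem hu1 _)

/-- `Y^(q-1) / q ∈ Vmid`. -/
theorem Y_pow_div_unif : T.Y ^ (q - 1) / rE R K F (q : R) ∈ T.Vmid := by
  obtain ⟨u, hu, h⟩ := T.basic_exists_u
  obtain ⟨υ, hυ⟩ := natCast_eq T1.hq T.ζ T.hζ
  have hl0 : cR R' K' (HahnSeries.C (1 - (T.ζ : R'))) ≠ 0 := by
    intro h0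
    apply T.Y_ne_zero
    rw [h0, zero_mul] at h
    exact (map_eq_zero T.jm).1 h
  have hq' : (q : LaurentSeries K') = cR R' K' (HahnSeries.C (υ : R')) *
      cR R' K' (HahnSeries.C (1 - (T.ζ : R'))) ^ (q - 1) := by
    rw [← map_pow, ← map_pow, ← map_mul, ← map_mul, ← hυ, map_natCast, map_natCast]
  have hυ1 : cR R' K' (HahnSeries.C (υ : R')) * cR R' K' (HahnSeries.C ((υ⁻¹ : R'ˣ) : R')) = 1 := by
    rw [← map_mul, ← map_mul, Units.mul_inv, map_one, map_one]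
  have hυ0 : cR R' K' (HahnSeries.C (υ : R')) ≠ 0 := left_ne_zero_of_mul_eq_one hυ1
  rw [mem_Vmid, map_div₀, map_pow, basic_jm_q, h, hq']
  have e : (cR R' K' (HahnSeries.C (1 - (T.ζ : R'))) * cR R' K' u) ^ (q - 1) /
      (cR R' K' (HahnSeries.C (υ : R')) * cR R' K' (HahnSeries.C (1 - (T.ζ : R'))) ^ (q - 1)) =
      cR R' K' (HahnSeries.C ((υ⁻¹ : R'ˣ) : R')) * (cR R' K' u) ^ (q - 1) := by
    rw [mul_pow, eq_inv_of_mul_eq_one_right hυ1]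
    field_simp
  rw [e]
  exact mul_mem (cR_mem_gaussLoc _) (pow_mem (cR_mem_gaussLoc _) _)

theorem Y_mem_Voo : T.Y ∈ T.Voo := by
  exact sub_mem T.xF_mem_Voo T.xqq_mem_Voo

theorem Y_notMem_Voo_nonunits : T.Y ∉ T.Voo.nonunits := T.basic_Y_notMem

theorem Y_mem_V0 : T.Y ∈ T.V0 := by
  exact sub_mem T.xF_mem_V0 T.xqq_mem_V0

theorem Y_notMem_V0_nonunits : T.Y ∉ T.V0.nonunits := by
  rw [mem_V0_nonunits, w_Y, ValuationSubring.mem_nonunits_iff, Valuation.map_neg,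
    ← ValuationSubring.mem_nonunits_iff]
  exact T.basic_Y_notMem

theorem Voo_ne_Vmid : T.Voo ≠ T.Vmid := by
  intro h
  apply T.basic_Y_notMem
  rw [h]
  exact T.Y_mem_Vmid_nonunits

theorem Voo_ne_V0 : T.Voo ≠ T.V0 := by
  intro h
  apply T1.Vi_ne_V0
  rw [← T.comap_α_oo, ← T.comap_α_0, h]

theorem Vmid_ne_V0 : T.Vmid ≠ T.V0 := by
  intro h
  apply T1.Vi_ne_V0
  rw [← T.comap_α_mid, ← T.comap_α_0, h]

end Three

end Fermat.Agent.S36.V3
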