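import Fermat.Agent.S36.V3.ThreeBasic
import Fermat.Agent.S34.V2.TwoCount
import Fermat.Agent.S36.Norm.DVR

set_option autoImplicit false
set_option linter.unusedSectionVars false
set_option linter.style.haveILetI false

/-!
# S36/V3 : `Voo`, `Vmid`, `V0` are all the extensions of `VE`, `(e, f) = (1,1), (q-1,1), (1,q²)`   (task V3-ThreeCount)

Same pattern as `S34/V2/TwoCount.lean` (read it first).  Apply `S34/V2/Count.lean` with `A₀ := ↥T1.VE` (`T1.isDVR_VE`), `K1 := E`, `L := F`, `Algebra ↥T1.VE F := T.algVE`,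
`ι := Fin 3`, `V = (Voo, Vmid, V0)` (injective by `Voo_ne_Vmid`, `Voo_ne_V0`, `Vmid_ne_V0`), `e = (1, q-1, 1)`, `f = (1, 1, q*q)`, `π = (q, Y, q)`,
`b = (1 ; 1 ; xqq^k, k < q*q)`; `∑ e f = 1 + (q-1) + q*q = q*q + q ≥ finrank E F`.

* `finrank_le`: `Module.finrank_mul_finrank E F1 F`, `T1.deg`, `T.deg_α` (`T1.fin`, `T.fin_α`, `FiniteDimensional.trans`).
* membership of `algebraMap E F y = α (algebraMap E F1 y)`: `comap_α_*` + `T1.map_mem_Vi`, `T1.map_mem_V0` (and the `nonunits` versions through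
  `S18.DVR.mem_nonunits_comap`).
* `extData_mid`: `pi_dvd`: a nonunit `a` of `VE` is `q * a'` (`T1.div_unif_E T.hunr`), and `q / Y^(q-1) ∈ Vmid` (`unif_div_Y`).
* `extData_0` `indep`: apply `T.w`: `T.jF (T.w (∑ a k * xqq^k)) = ∑ qExpand (q*q) (T1.jE (a k)) * (cR x₀)^k` (`T.w_α`, `T.jF_β`, `T1.w_E`, `qExpand_qExpand`) and use
  `indep_qExpand (q*q)`.
* `div_Y_mid`: `count_unif`.  `unif_mid`: `S36.Norm.isUnif_of_ext` (file `S36/Norm/DVR.lean`, with `K1 := E`, `V' := T1.VE`, `ϖ := rE q`, `e := q - 1`, `hram := Y_pow_div_unif`; `IsUnif T1.VE (rE q)` from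
  `T1.unif_E T.hunr`), then unfold `IsUnif.exists_ord` / `HasOrd`.
-/

noncomputable section

namespace Fermat.Agent.S36.V3

open ModularCurve Polynomial IntermediateField Fermat.Agent.S18 Fermat.Agent.S18.V Fermat.Agent.S34.V2

namespace Three

variable {R K : Type} [CommRing R] [IsDomain R] [IsDiscreteValuationRing R] [Field K] [CharZero K]
  [Algebra R K] [IsFractionRing R K] {R' K' : Type} [CommRing R'] [IsDomain R'] [IsLocalRing R']
  [Field K'] [Algebra R' K'] [IsFractionRing R' K'] {q : ℕ} [NeZero q] {E F1 F : Type}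
  [Field E] [Field F1] [Field F] [Algebra K E] [Algebra K F1] [Algebra K F] [Algebra E F1]
  [Algebra F1 F] [Algebra E F] [IsScalarTower K E F1] [IsScalarTower K F1 F] [IsScalarTower E F1 F]
  {T1 : Two R K q E F1} (T : Three R' K' F T1)

/-- `F` as an algebra over the DVR `T1.VE`. -/
abbrev algVE (_T : Three R' K' F T1) : Algebra ↥T1.VE F :=
  ((algebraMap E F).comp T1.VE.subtype).toAlgebra

include T in
theorem finite_E : FiniteDimensional E F := by
  haveI := T1.fin
  haveI := T.fin_α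
  exact FiniteDimensional.trans E F1 F

include T in
theorem finrank_le : Module.finrank E F ≤ q * q + q := by
  haveI := T1.fin
  haveI := T.fin_α
  rw [← Module.finrank_mul_finrank E F1 F]
  calc Module.finrank E F1 * Module.finrank F1 F ≤ (q + 1) * q := Nat.mul_le_mul T1.deg T.deg_α
    _ = q * q + q := by ring

theorem map_mem_Voo {y : E} : algebraMap E F y ∈ T.Voo ↔ y ∈ T1.VE := by
  rw [IsScalarTower.algebraMap_apply E F1 F, ← ValuationSubring.mem_comap, T.comap_α_oo,
    T1.map_mem_Vi]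

theorem map_mem_Vmid {y : E} : algebraMap E F y ∈ T.Vmid ↔ y ∈ T1.VE := by
  rw [IsScalarTower.algebraMap_apply E F1 F, ← ValuationSubring.mem_comap, T.comap_α_mid,
    T1.map_mem_Vi]

theorem map_mem_V0 {y : E} : algebraMap E F y ∈ T.V0 ↔ y ∈ T1.VE := by
  rw [IsScalarTower.algebraMap_apply E F1 F, ← ValuationSubring.mem_comap, T.comap_α_0,
    T1.map_mem_V0]

theorem map_mem_Voo_nonunits {y : E} : algebraMap E F y ∈ T.Voo.nonunits ↔ y ∈ T1.VE.nonunits := by
  rw [IsScalarTower.algebraMap_apply E F1 F, ← S18.DVR.mem_nonunits_comap, T.comap_α_oo,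
    T1.map_mem_Vi_nonunits]

theorem map_mem_Vmid_nonunits {y : E} :
    algebraMap E F y ∈ T.Vmid.nonunits ↔ y ∈ T1.VE.nonunits := by
  rw [IsScalarTower.algebraMap_apply E F1 F, ← S18.DVR.mem_nonunits_comap, T.comap_α_mid,
    T1.map_mem_Vi_nonunits]

theorem map_mem_V0_nonunits {y : E} : algebraMap E F y ∈ T.V0.nonunits ↔ y ∈ T1.VE.nonunits := by
  rw [IsScalarTower.algebraMap_apply E F1 F, ← S18.DVR.mem_nonunits_comap, T.comap_α_0,
    T1.map_mem_V0_nonunits]

include T in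
theorem tc_map_rE (r : R) : algebraMap E F (rE R K E r) = rE R K F r := by
  simp only [rE, RingHom.comp_apply]
  rw [IsScalarTower.algebraMap_apply E F1 F, ← IsScalarTower.algebraMap_apply K E F1,
    ← IsScalarTower.algebraMap_apply K F1 F]

include T in
theorem tc_rE_ne_zero : rE R K F (q : R) ≠ 0 :=
  fun h0 => T.hunr.ne_zero (rE_injective (K := K) (E := F) (by rw [h0, map_zero]))

theorem extData_oo :
    letI := T.algVE
    ExtData ↥T1.VE T.Voo 1 (rE R K F (q : R)) (fun _ : Fin 1 => (1 : F)) := by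
  letI := T.algVE
  have hnon : ∀ a : ↥T1.VE, ¬ IsUnit a → algebraMap ↥T1.VE F a ∈ T.Voo.nonunits := fun a ha =>
    T.map_mem_Voo_nonunits.2 ((T1.tc_not_isUnit_iff a).1 ha)
  refine ⟨fun a => T.map_mem_Voo.2 a.2, hnon, T.tc_rE_ne_zero,
    T.rE_mem_Voo_nonunits.2 T.hunr.not_isUnit, fun a ha => ?_, fun _ => T.Voo.one_mem, ?_⟩
  · rw [pow_one]
    exact T.div_unif_oo T.hunr (hnon a ha)
  · intro a ha k
    rw [Fin.sum_univ_one, mul_one] at ha
    have hk : k = 0 := Subsingleton.elim _ _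
    rw [hk, T1.tc_not_isUnit_iff]
    exact T.map_mem_Voo_nonunits.1 ha

theorem extData_mid :
    letI := T.algVE
    ExtData ↥T1.VE T.Vmid (q - 1) T.Y (fun _ : Fin 1 => (1 : F)) := by
  letI := T.algVE
  have hnon : ∀ a : ↥T1.VE, ¬ IsUnit a → algebraMap ↥T1.VE F a ∈ T.Vmid.nonunits := fun a ha =>
    T.map_mem_Vmid_nonunits.2 ((T1.tc_not_isUnit_iff a).1 ha)
  refine ⟨fun a => T.map_mem_Vmid.2 a.2, hnon, T.Y_ne_zero, T.Y_mem_Vmid_nonunits,
    fun a ha => ?_, fun _ => T.Vmid.one_mem, ?_⟩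
  · have h1 := T1.div_unif_E T.hunr ((T1.tc_not_isUnit_iff a).1 ha)
    have h2 : algebraMap ↥T1.VE F a / T.Y ^ (q - 1) =
        algebraMap E F ((a : E) / rE R K E (q : R)) * (rE R K F (q : R) / T.Y ^ (q - 1)) := by
      rw [map_div₀, T.tc_map_rE]
      have h3 := T.tc_rE_ne_zero
      have h4 : algebraMap ↥T1.VE F a = algebraMap E F (a : E) := rfl
      rw [h4]
      field_simp
    rw [h2]
    exact mul_mem (T.map_mem_Vmid.2 h1) T.unif_div_Y
  · intro a ha k
    rw [Fin.sum_univ_one, mul_one] at ha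
    have hk : k = 0 := Subsingleton.elim _ _
    rw [hk, T1.tc_not_isUnit_iff]
    exact T.map_mem_Vmid_nonunits.1 ha

theorem extData_0 :
    letI := T.algVE
    ExtData ↥T1.VE T.V0 1 (rE R K F (q : R)) (fun k : Fin (q * q) => T.xqq ^ (k : ℕ)) := by
  letI := T.algVE
  have hnon : ∀ a : ↥T1.VE, ¬ IsUnit a → algebraMap ↥T1.VE F a ∈ T.V0.nonunits := fun a ha =>
    T.map_mem_V0_nonunits.2 ((T1.tc_not_isUnit_iff a).1 ha)
  refine ⟨fun a => T.map_mem_V0.2 a.2, hnon, T.tc_rE_ne_zero,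
    T.rE_mem_V0_nonunits.2 T.hunr.not_isUnit, fun a ha => ?_, fun k => pow_mem T.xqq_mem_V0 _, ?_⟩
  · rw [pow_one]
    exact T.div_unif_0 T.hunr (hnon a ha)
  · intro a ha k
    rw [T.mem_V0_nonunits, T.mem_Voo_nonunits] at ha
    have e : T.jF (T.w (∑ k, algebraMap ↥T1.VE F (a k) * T.xqq ^ (k : ℕ))) =
        ∑ k, qExpand K (q * q) (T1.jE (a k : E)) * cR R K T1.x₀ ^ (k : ℕ) := by
      rw [map_sum, map_sum]
      apply Finset.sum_congr rfl
      intro k _
      rw [map_mul, map_mul, map_pow, map_pow]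
      have h1 : T.jF (T.w (algebraMap ↥T1.VE F (a k))) = qExpand K (q * q) (T1.jE (a k : E)) := by
        have h4 : algebraMap ↥T1.VE F (a k) = algebraMap F1 F (algebraMap E F1 (a k : E)) :=
          IsScalarTower.algebraMap_apply E F1 F (a k : E)
        rw [h4, T.w_α, T.jF_β, T1.w_E, qExpand_qExpand]
      have h2 : T.jF (T.w T.xqq) = cR R K T1.x₀ := by
        rw [xqq, T.w_w, xF, T.compat, Two.xF, T1.compat, T1.hx]
      rw [h1, h2]
    rw [e] at ha
    have := indep_qExpand (q * q) T1.x₀ T1.hord T1.hlead (fun k => T1.jE (a k : E))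
      (fun k => T1.inQF_E _) (fun k => (a k).2) ha k
    rw [T1.tc_not_isUnit_iff, T1.mem_VE_nonunits]
    exact this

/-- the family `(Vmid, Voo, V0)`. -/
def tcV : Option Bool → ValuationSubring F
  | none => T.Vmid
  | some true => T.Voo
  | some false => T.V0

/-- the ramification indices. -/
def tcE (q : ℕ) : Option Bool → ℕ
  | none => q - 1
  | some _ => 1

/-- the residue degrees. -/
def tcF (q : ℕ) : Option Bool → ℕ
  | none => 1
  | some true => 1
  | some false => q * q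

/-- the uniformisers. -/
def tcP : Option Bool → F
  | none => T.Y
  | some _ => rE R K F (q : R)

/-- the residue bases. -/
def tcB : ∀ i : Option Bool, Fin (tcF q i) → F
  | none => fun _ => 1
  | some true => fun _ => 1
  | some false => fun k => T.xqq ^ (k : ℕ)

theorem tcV_injective : Function.Injective T.tcV := by
  intro i j hij
  rcases i with _ | (_ | _) <;> rcases j with _ | (_ | _)
  · rfl
  · exact absurd hij T.Vmid_ne_V0
  · exact absurd hij.symm T.Voo_ne_Vmid
  · exact absurd hij.symm T.Vmid_ne_V0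
  · rfl
  · exact absurd hij.symm T.Voo_ne_V0
  · exact absurd hij T.Voo_ne_Vmid
  · exact absurd hij T.Voo_ne_V0
  · rfl

theorem tc_extData (i : Option Bool) :
    letI := T.algVE
    ExtData ↥T1.VE (T.tcV i) (tcE q i) (T.tcP i) (T.tcB i) := by
  rcases i with _ | (_ | _)
  · exact T.extData_mid
  · exact T.extData_0
  · exact T.extData_oo

include T in
theorem tc_sum : Module.finrank E F ≤ ∑ i : Option Bool, tcE q i * tcF q i := by
  rw [Fintype.sum_option, Fintype.sum_bool]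
  have := T.finrank_le
  have hq : 0 < q := Nat.pos_of_ne_zero (NeZero.ne q)
  simp only [tcE, tcF, one_mul, mul_one]
  omega

/-- `Voo ∩ Vmid ∩ V0` is integral over `VE`. -/
theorem integral_of_mem {z : F} (hi : z ∈ T.Voo) (hm : z ∈ T.Vmid) (h0 : z ∈ T.V0) :
    ∃ P : E[X], P.Monic ∧ (∀ i, P.coeff i ∈ T1.VE) ∧ aeval z P = 0 := by
  letI := T.algVE
  haveI := T1.isDVR_VE
  haveI : IsScalarTower ↥T1.VE E F := IsScalarTower.of_algebraMap_eq fun _ => rfl
  haveI : CharZero E := charZero_of_injective_algebraMap (algebraMap K E).injective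
  haveI := T.finite_E
  obtain ⟨P, hP, hPz⟩ := count_integral (K1 := E) T.tcV T.tcV_injective (tcE q) (tcF q)
    T.tcP T.tcB T.tc_extData T.tc_sum z (by
      intro i
      rcases i with _ | (_ | _)
      · exact hm
      · exact h0
      · exact hi)
  refine ⟨P.map (algebraMap ↥T1.VE E), hP.map _, fun i => ?_, ?_⟩
  · rw [coeff_map]
    exact (P.coeff i).2
  · rw [aeval_def, eval₂_map, ← IsScalarTower.algebraMap_eq]
    exact hPz

/-- `f(Voo / VE) = 1`. -/
theorem res_deg_one_oo {z : F} (hz : z ∈ T.Voo) :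
    ∃ y ∈ T1.VE, z - algebraMap E F y ∈ T.Voo.nonunits := by
  letI := T.algVE
  haveI := T1.isDVR_VE
  haveI : IsScalarTower ↥T1.VE E F := IsScalarTower.of_algebraMap_eq fun _ => rfl
  haveI : CharZero E := charZero_of_injective_algebraMap (algebraMap K E).injective
  haveI := T.finite_E
  obtain ⟨a, ha⟩ := count_span (K1 := E) T.tcV T.tcV_injective (tcE q) (tcF q)
    T.tcP T.tcB T.tc_extData T.tc_sum (some true) z hz
  refine ⟨(a (0 : Fin 1) : E), (a (0 : Fin 1)).2, ?_⟩
  have e : ∑ k, algebraMap ↥T1.VE F (a k) * T.tcB (some true) k =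
      algebraMap E F (a (0 : Fin 1) : E) := by
    have : ∑ k : Fin 1, algebraMap ↥T1.VE F (a k) * T.tcB (some true) k =
        algebraMap ↥T1.VE F (a (0 : Fin 1)) * T.tcB (some true) (0 : Fin 1) := Fin.sum_univ_one _
    refine this.trans ?_
    show algebraMap ↥T1.VE F (a (0 : Fin 1)) * 1 = _
    rw [mul_one]
    rfl
  rw [e] at ha
  exact ha

/-- `f(Vmid / VE) = 1`. -/
theorem res_deg_one_mid {z : F} (hz : z ∈ T.Vmid) :
    ∃ y ∈ T1.VE, z - algebraMap E F y ∈ T.Vmid.nonunits := by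
  letI := T.algVE
  haveI := T1.isDVR_VE
  haveI : IsScalarTower ↥T1.VE E F := IsScalarTower.of_algebraMap_eq fun _ => rfl
  haveI : CharZero E := charZero_of_injective_algebraMap (algebraMap K E).injective
  haveI := T.finite_E
  obtain ⟨a, ha⟩ := count_span (K1 := E) T.tcV T.tcV_injective (tcE q) (tcF q)
    T.tcP T.tcB T.tc_extData T.tc_sum none z hz
  refine ⟨(a (0 : Fin 1) : E), (a (0 : Fin 1)).2, ?_⟩
  have e : ∑ k, algebraMap ↥T1.VE F (a k) * T.tcB none k =
      algebraMap E F (a (0 : Fin 1) : E) := by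
    have : ∑ k : Fin 1, algebraMap ↥T1.VE F (a k) * T.tcB none k =
        algebraMap ↥T1.VE F (a (0 : Fin 1)) * T.tcB none (0 : Fin 1) := Fin.sum_univ_one _
    refine this.trans ?_
    show algebraMap ↥T1.VE F (a (0 : Fin 1)) * 1 = _
    rw [mul_one]
    rfl
  rw [e] at ha
  exact ha

/-- `f(V0 / w VE) = 1`. -/
theorem res_deg_one_0 {z : F} (hz : z ∈ T.V0) :
    ∃ y ∈ T1.VE, z - T.w (algebraMap E F y) ∈ T.V0.nonunits := by
  obtain ⟨y, hy, h⟩ := T.res_deg_one_oo (T.mem_V0.1 hz)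
  refine ⟨y, hy, ?_⟩
  rw [T.mem_V0_nonunits, map_sub, T.w_w]
  exact h

/-- `Y` is a uniformiser of `Vmid`. -/
theorem div_Y_mid {z : F} (hz : z ∈ T.Vmid.nonunits) : z / T.Y ∈ T.Vmid := by
  letI := T.algVE
  haveI := T1.isDVR_VE
  haveI : IsScalarTower ↥T1.VE E F := IsScalarTower.of_algebraMap_eq fun _ => rfl
  haveI : CharZero E := charZero_of_injective_algebraMap (algebraMap K E).injective
  haveI := T.finite_E
  exact count_unif (K1 := E) T.tcV T.tcV_injective (tcE q) (tcF q)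
    T.tcP T.tcB T.tc_extData T.tc_sum none z hz

/-- every nonzero element is `Y^k * unit` at `Vmid`. -/
theorem unif_mid {z : F} (hz : z ≠ 0) :
    ∃ k : ℤ, T.Y ^ k * z ∈ T.Vmid ∧ (T.Y ^ k * z)⁻¹ ∈ T.Vmid := by
  haveI := T.finite_E
  have hE0 : rE R K E (q : R) ≠ 0 :=
    fun h0 => T.hunr.ne_zero (rE_injective (K := K) (E := E) (by rw [h0, map_zero]))
  have hunif : S36.Norm.IsUnif T1.VE (rE R K E (q : R)) := by
    refine ⟨T1.rE_mem_VE_nonunits.2 T.hunr.not_isUnit, hE0, fun y hy => ?_⟩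
    obtain ⟨k, h1, h2⟩ := T1.unif_E T.hunr hy
    refine ⟨-k, hy, ?_, ?_⟩
    · rw [zpow_neg, div_inv_eq_mul, mul_comm]
      exact h1
    · rw [zpow_neg, ← one_div, div_div, one_div]
      exact h2
  have hcomap : T.Vmid.comap (algebraMap E F) = T1.VE := by
    ext y
    rw [ValuationSubring.mem_comap]
    exact T.map_mem_Vmid
  have h := S36.Norm.isUnif_of_ext hunif hcomap T.Y_mem_Vmid_nonunits T.Y_ne_zero
    (fun z hz => T.div_Y_mid hz) (e := q - 1) (by rw [T.tc_map_rE]; exact T.Y_pow_div_unif)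
  obtain ⟨k, -, h1, h2⟩ := h.exists_ord z hz
  refine ⟨-k, ?_, ?_⟩
  · rw [zpow_neg, mul_comm, ← div_eq_mul_inv]
    exact h1
  · rw [zpow_neg, mul_comm, ← div_eq_mul_inv, inv_div]
    exact h2

/-- the three branches are the only extensions of `VE`. -/
theorem eq_of_ext (W : ValuationSubring F) (h1 : ∀ y ∈ T1.VE, algebraMap E F y ∈ W)
    (h2 : ∀ y ∈ T1.VE.nonunits, algebraMap E F y ∈ W.nonunits) :
    W = T.Voo ∨ W = T.Vmid ∨ W = T.V0 := by
  letI := T.algVE
  haveI := T1.isDVR_VE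
  haveI : IsScalarTower ↥T1.VE E F := IsScalarTower.of_algebraMap_eq fun _ => rfl
  haveI : CharZero E := charZero_of_injective_algebraMap (algebraMap K E).injective
  haveI := T.finite_E
  obtain ⟨i, hi⟩ := count_all (K1 := E) T.tcV T.tcV_injective (tcE q) (tcF q)
    T.tcP T.tcB T.tc_extData T.tc_sum W (fun a => h1 _ a.2)
    (fun a ha => h2 _ ((T1.tc_not_isUnit_iff a).1 ha))
  rcases i with _ | (_ | _)
  · exact Or.inr (Or.inl hi)
  · exact Or.inr (Or.inr hi)
  · exact Or.inl hi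

end Three

end Fermat.Agent.S36.V3
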